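import Fermat.Agent.LT2.Ident.KW
import Mathlib.NumberTheory.LSeries.PrimesInAP

/-!
# A character of finite order is a Dirichlet character at the Frobenius elements
-/

set_option autoImplicit false

noncomputable section

open scoped Classical

namespace FermatAgent.LT2.Ident

open CFT CFT.Coh CFT.Global GaloisBasic

/-- **Kronecker–Weber**: a character with open kernel takes the values of a Dirichlet character at
the Frobenius elements outside its modulus. -/
theorem exists_dirichlet (χ : GQ →* ℂˣ) (hopen : IsOpen (χ.ker : Set GQ)) :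
    ∃ (M : ℕ) (_ : NeZero M) (η : DirichletCharacter ℂ M), ∀ p : ℕ, p.Prime → ¬ p ∣ M →
      ∀ A : ValuationSubring Qbar, A.LiesOverPrime p → ∀ σ : GQ, A.IsFrobeniusAt σ p →
        η (p : ZMod M) = (χ σ : ℂ) := by
  obtain ⟨F, hF, hFker⟩ := (krullTopology_mem_nhds_one_iff ℚ Qbar (χ.ker : Set GQ)).1
    (hopen.mem_nhds (one_mem _))
  have := hF
  have := LQ.finiteIndex (fixingSubgroup_mem_galLevels F)
  have : χ.ker.FiniteIndex := Subgroup.finiteIndex_of_le (H := F.fixingSubgroup) hFker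
  -- the values are roots of unity
  set m := χ.ker.index with hm
  have : NeZero m := ⟨Subgroup.FiniteIndex.index_ne_zero⟩
  obtain ⟨ζ, hζ⟩ := HasEnoughRootsOfUnity.exists_primitiveRoot ℂ m
  have hex : ∀ g, ∃ a : ZMod m, (χ g : ℂ) = ζ ^ a.val := fun g => by
    have h1 : χ g ^ m = 1 := by rw [← map_pow]; exact MonoidHom.mem_ker.1 (χ.ker.pow_index_mem g)
    obtain ⟨i, hi, hi'⟩ := hζ.eq_pow_of_pow_eq_one (ξ := (χ g : ℂ))
      (by rw [← Units.val_pow_eq_pow_val, h1, Units.val_one])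
    exact ⟨(i : ZMod m), by rw [ZMod.val_natCast, Nat.mod_eq_of_lt hi, hi']⟩
  choose a ha using hex
  have huniq : ∀ {x y : ZMod m}, ζ ^ x.val = ζ ^ y.val → x = y := fun {x y} h =>
    ZMod.val_injective m (hζ.pow_inj (ZMod.val_lt x) (ZMod.val_lt y) h)
  let ψ : CycChar LQ ⊤ m :=
    { toFun := a
      map_mul' := fun g _ h _ => huniq (by
        rw [← ha, map_mul, Units.val_mul, ha, ha, ← pow_add, ZMod.val_add,
          ← pow_mod_orderOf ζ ((a g).val + (a h).val), ← hζ.eq_orderOf])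
      const' := ⟨F.fixingSubgroup, fixingSubgroup_mem_galLevels F, fun g _ s hs => huniq (by
        rw [← ha, ← ha, map_mul, MonoidHom.mem_ker.1 (hFker hs.2), mul_one])⟩ }
  obtain ⟨M, hM, hker⟩ := exists_cyclotomic_kernel ψ
  have : NeZero M := ⟨hM⟩
  obtain ⟨μ, hμ⟩ := HasEnoughRootsOfUnity.exists_primitiveRoot Qbar M
  let c : GQ →* (ZMod M)ˣ := hμ.autToPow ℚ
  have hfrob : ∀ p : ℕ, p.Prime → ¬ p ∣ M → ∀ A : ValuationSubring Qbar, A.LiesOverPrime p →
      ∀ σ : GQ, A.IsFrobeniusAt σ p →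
        ((c σ : (ZMod M)ˣ) : ZMod M) = p := fun p hp hpM A hA σ hσ => by
    have h1 := hμ.autToPow_spec ℚ σ
    rw [LT.Mod3.frobenius_rootOfUnity hp hpM hA hσ hμ.pow_eq_one, ← pow_mod_orderOf μ p,
      ← hμ.eq_orderOf] at h1
    have h2 := hμ.pow_inj (ZMod.val_lt _) (Nat.mod_lt _ (NeZero.pos M)) h1
    rw [← ZMod.natCast_zmod_val ((c σ : (ZMod M)ˣ) : ZMod M), show c σ = hμ.autToPow ℚ σ from rfl,
      h2, ZMod.natCast_mod]
  have hker' : c.ker ≤ χ.ker := fun σ hσ => by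
    rw [MonoidHom.mem_ker] at hσ ⊢
    have h1 := hμ.autToPow_spec ℚ σ
    rw [show hμ.autToPow ℚ σ = 1 from hσ, Units.val_one] at h1
    have hfix : ∀ z : Qbar, z ^ M = 1 → σ z = z := fun z hz => by
      obtain ⟨i, -, rfl⟩ := hμ.eq_pow_of_pow_eq_one hz
      rw [map_pow]
      congr 1
      rcases Nat.lt_or_ge 1 M with hM1 | hM1
      · have : Fact (1 < M) := ⟨hM1⟩
        rw [← h1, ZMod.val_one, pow_one]
      · obtain rfl : M = 1 := by have := NeZero.pos M; omega
        rw [IsPrimitiveRoot.one_right_iff.1 hμ, map_one]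
    refine Units.ext ?_
    rw [ha, show a σ = 0 from hker σ hfix, ZMod.val_zero, pow_zero, Units.val_one]
  have hsurj : Function.Surjective c := fun u => by
    obtain ⟨p, hpgt, hp, hpu⟩ := Nat.forall_exists_prime_gt_and_eq_mod u.isUnit M
    obtain ⟨A, hA⟩ := exists_liesOverPrime hp
    obtain ⟨σ, hσ⟩ := exists_isFrobeniusAt hp hA
    refine ⟨σ, Units.ext ?_⟩
    rw [hfrob p hp (fun h => by have := Nat.le_of_dvd (NeZero.pos M) h; omega) A hA σ hσ, hpu]
  let η₀ : (ZMod M)ˣ →* ℂˣ := c.liftOfSurjective hsurj ⟨χ, hker'⟩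
  refine ⟨M, inferInstance, MulChar.ofUnitHom η₀, fun p hp hpM A hA σ hσ => ?_⟩
  rw [← hfrob p hp hpM A hA σ hσ, MulChar.ofUnitHom_coe,
    MonoidHom.liftOfRightInverse_comp_apply]

end FermatAgent.LT2.Ident
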