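import Fermat.Agent.LT2.Ident.Hecke
import Fermat.Agent.LT2.Fields.Rep
import Fermat.Agent.LT.Mod3.Galois.Torsion

/-!
# The input from the lift and a normalised eigenform

The input is one weight one form on `Γ(k)` with the relations `T_p = ± 2` at the Eisenstein primes
of conductor `k`; it gives a normalised eigenform with the same relations.
-/

set_option autoImplicit false
set_option maxSynthPendingDepth 4

noncomputable section

open UpperHalfPlane CongruenceSubgroup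
open scoped MatrixGroups ModularForm Manifold OnePoint

namespace FermatAgent.LT2.Ident

open FermatAgent.ES (HasExp qm)
open FermatAgent.DS (serOne hasExp_serOne coeff_serOne IsEigenOne)
open FermatAgent.LT.Mod3 (IsCMPrime)
open ModularForm (heckeDiagMatrix)

local notation "toR" => (Matrix.SpecialLinearGroup.mapGL ℝ : SL(2, ℤ) →* GL (Fin 2) ℝ)
local notation "Qbar" => AlgebraicClosure ℚ
local notation "GQ" => AlgebraicClosure ℚ ≃ₐ[ℚ] AlgebraicClosure ℚ

/-- The relation `T_p = t` for an expansion of width `k`. -/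
def Rel (k : ℕ) (f : ℍ → ℂ) (p : ℕ) (t : ℂ) : Prop :=
  ∀ n, (qExpansion (k : ℝ) f).coeff (p * n) +
    (if p ∣ n then (qExpansion (k : ℝ) f).coeff (n / p) else 0) = t * (qExpansion (k : ℝ) f).coeff n

/-- The output of the lift. -/
structure Input (R : Fields.GRep) where
  /-- the conductor -/
  k : ℕ
  k_ne : k ≠ 0
  /-- the form -/
  f : ℍ → ℂ
  mdiff : MDiff f
  invariant : ∀ γ ∈ Gamma k, f ∣[(1 : ℤ)] γ = f
  cusp : ∀ δ : SL(2, ℤ), IsZeroAtImInfty (f ∣[(1 : ℤ)] δ)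
  ne_zero : f ≠ 0
  /-- the excluded primes -/
  bad : Finset ℕ
  hecke : ∀ p : ℕ, p.Prime → p ∉ bad → IsCMPrime k p → ∀ A : ValuationSubring Qbar,
    A.LiesOverPrime p → ∀ σ : GQ, A.IsFrobeniusAt σ p →
      (R.e σ = 1 → Rel k f p 2) ∧ (R.e σ = -1 → Rel k f p (-2))

/-- Cusp forms have vanishing constant coefficient. -/
theorem qCoeff_zero_eq {M : ℕ} [NeZero M] (g : CuspForm (Gamma1 M) 1) :
    ModularFormClass.qCoeff g 0 = 0 :=
  CuspFormClass.qExpansion_coeff_zero g one_pos (by simp)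

variable {R : Fields.GRep} (I : Input R)

instance neZero_k : NeZero I.k := ⟨I.k_ne⟩

instance neZero_sq : NeZero (I.k * I.k) := ⟨mul_ne_zero I.k_ne I.k_ne⟩

/-- The form as a cusp form of its principal level. -/
def baseForm : CuspForm (Gamma I.k) 1 where
  toFun := I.f
  slash_action_eq' := by
    rintro _ ⟨γ, hγ, rfl⟩
    exact I.invariant γ hγ
  holo' := I.mdiff
  zero_at_cusps' := fun {c} hc => by
    rw [Subgroup.IsArithmetic.isCusp_iff_isCusp_SL2Z] at hc
    obtain ⟨δ, rfl⟩ := isCusp_SL2Z_iff'.mp hc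
    rw [OnePoint.isZeroAt_iff_exists_SL2Z (isCusp_SL2Z_iff'.mpr ⟨δ, rfl⟩)]
    exact ⟨δ, rfl, I.cusp δ⟩

/-- The expansion of the form. -/
theorem hasExp_base : HasExp I.k I.f (qExpansion (I.k : ℝ) I.f) := by
  refine HasExp.exists_of_bounded (Curve.periodic_comp_ofComplex_of_vadd fun τ => ?_) I.mdiff ?_
  · have e := congrFun (I.invariant _ (LT.Mod3.T_pow_mem_Gamma (N := I.k))) τ
    rw [ModularForm.SL_slash_apply, modular_T_zpow_smul, ModularGroup.denom_apply,
      ModularGroup.coe_T_zpow] at e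
    simpa using e
  · have h := (I.cusp 1).boundedAtFilter
    rwa [SlashAction.slash_one] at h

/-- The scaled form on `Γ₁(k²)`. -/
theorem exists_scaled_form : ∃ F : CuspForm (Gamma1 (I.k * I.k)) 1, F ≠ 0 ∧
    (∀ γ ∈ Gamma0 (I.k * I.k), (γ 1 1 : ZMod I.k) = 1 → (F : ℍ → ℂ) ∣[(1 : ℤ)] toR γ = F) ∧
    ∀ n, ModularFormClass.qCoeff F n = (qExpansion (I.k : ℝ) I.f).coeff n := by
  obtain ⟨A, hA⟩ :=
    P2MW.S_CuspFormClass_isZeroAt_heckeU.ModularForm.S06W2.exists_heckeDiagMatrix_eq_map I.k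
  set F0 : ℍ → ℂ := I.f ∣[(1 : ℤ)] heckeDiagMatrix I.k with hF0
  have hinv : ∀ γ ∈ Gamma0 (I.k * I.k), (γ 1 1 : ZMod I.k) = 1 →
      F0 ∣[(1 : ℤ)] toR γ = F0 := by
    intro γ hγ hd
    obtain ⟨c', hc'⟩ := (ZMod.intCast_zmod_eq_zero_iff_dvd _ _).1 (Gamma0_mem.1 hγ)
    push_cast at hc'
    set g : Matrix (Fin 2) (Fin 2) ℤ := !![γ 0 0, I.k * γ 0 1; I.k * c', γ 1 1] with hg
    have hdet : g.det = 1 := by
      have h := γ.det_coe
      rw [Matrix.det_fin_two, hc'] at h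
      rw [hg, Matrix.det_fin_two_of]
      linear_combination h
    have ha : (γ 0 0 : ZMod I.k) = 1 := by
      have h := congrArg (fun z : ℤ => (z : ZMod I.k)) hdet
      simpa [hg, Matrix.det_fin_two_of, hd] using h
    have hmem : (⟨g, hdet⟩ : SL(2, ℤ)) ∈ Gamma I.k := by
      refine Gamma_mem.2 ⟨ha, ?_, ?_, hd⟩
      · show ((I.k * γ 0 1 : ℤ) : ZMod I.k) = 0
        simp
      · show ((I.k * c' : ℤ) : ZMod I.k) = 0
        simp
    have hmul : heckeDiagMatrix I.k * toR γ = toR (⟨g, hdet⟩ : SL(2, ℤ)) * heckeDiagMatrix I.k := by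
      have hk : (I.k : ℝ) ≠ 0 := Nat.cast_ne_zero.2 I.k_ne
      have hcR : (γ 1 0 : ℝ) = I.k * I.k * c' := by exact_mod_cast congrArg (Int.cast : ℤ → ℝ) hc'
      refine Units.ext ?_
      have hv : ∀ a b : Fin 2, (toR (⟨g, hdet⟩ : SL(2, ℤ))).val a b = (g a b : ℝ) := fun _ _ =>
        DS.val_toR _ _ _
      ext a b
      simp only [Units.val_mul, Matrix.mul_apply, Fin.sum_univ_two, hv, DS.val_toR]
      fin_cases a <;> fin_cases b <;>
        simp [hg, ModularForm.val_heckeDiagMatrix I.k_ne, hcR] <;> ring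
    have hI : I.f ∣[(1 : ℤ)] toR (⟨g, hdet⟩ : SL(2, ℤ)) = I.f := I.invariant _ hmem
    rw [hF0, ← SlashAction.slash_mul, hmul, SlashAction.slash_mul, hI]
  obtain ⟨F, hF⟩ := exists_form (M := I.k * I.k) (baseForm I) (fun _ : Fin 1 => A) (fun _ => 1) F0
    (by rw [Fin.sum_univ_one, one_smul, hF0, hA]; rfl)
    fun γ hγ => by
      obtain ⟨-, hd, hc⟩ := (Gamma1_mem _ γ).1 hγ
      refine hinv γ (Gamma0_mem.2 hc) ?_
      have h := congrArg (ZMod.castHom (dvd_mul_left I.k I.k) (ZMod I.k)) hd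
      rwa [map_intCast, map_one] at h
  refine ⟨F, fun e => I.ne_zero ?_, by rw [hF]; exact hinv, fun n => ?_⟩
  · have h0 : F0 = 0 := by rw [← hF, e]; rfl
    calc I.f = I.f ∣[(1 : ℤ)] (heckeDiagMatrix I.k * (heckeDiagMatrix I.k)⁻¹) := by
          rw [mul_inv_cancel, SlashAction.slash_one]
      _ = 0 := by rw [SlashAction.slash_mul, ← hF0, h0, SlashAction.zero_slash]
  · refine (qCoeff_eq_coeff F (c := qExpansion (I.k : ℝ) I.f) (fun τ => ?_) n)
    have h := hasExp_base I (heckeDiagMatrix I.k • τ)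
    rw [hF, hF0, ModularForm.slash_heckeDiagMatrix_apply 1 I.k_ne, sub_self, zpow_zero, one_mul]
    refine h.congr_fun fun e => ?_
    congr 2
    simp only [qm, Function.Periodic.qParam, ModularForm.coe_heckeDiagMatrix_smul I.k_ne]
    congr 1
    have hk : (I.k : ℂ) ≠ 0 := Nat.cast_ne_zero.2 I.k_ne
    push_cast
    field_simp

/-- A normalised eigenform with the relations of the input. -/
theorem exists_isEigenOne : ∃ (N : ℕ) (_ : NeZero N) (ε : DirichletCharacter ℂ N)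
    (g : CuspForm (Gamma1 N) 1), IsEigenOne N ε g ∧
      ∀ p : ℕ, p.Prime → p ∉ I.bad → IsCMPrime I.k p → ∀ A : ValuationSubring Qbar,
        A.LiesOverPrime p → ∀ σ : GQ, A.IsFrobeniusAt σ p →
          (R.e σ = 1 → ε (p : ZMod N) = 1 ∧ ModularFormClass.qCoeff g p = 2) ∧
          (R.e σ = -1 → ε (p : ZMod N) = 1 ∧ ModularFormClass.qCoeff g p = -2) := by
  classical
  obtain ⟨F, hF0, hinv, hFc⟩ := exists_scaled_form I
  set P : Set (ℕ × ℂ) := {x | x.1.Prime ∧ IsCMPrime I.k x.1 ∧ Rel I.k I.f x.1 x.2}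
  have hgood : ∀ p : ℕ, p.Prime → IsCMPrime I.k p → ¬ p ∣ I.k * I.k := fun p hp hcm hd => by
    have hpk : p ∣ I.k := (hp.dvd_mul.1 hd).elim id id
    have h1 : I.k ∣ p - 1 := (ZMod.natCast_eq_zero_iff _ _).1
      (by rw [Nat.cast_sub hp.one_le, hcm.cast_eq_one, Nat.cast_one, sub_self])
    have := Nat.le_of_dvd (by have := hp.one_lt; omega) (hpk.trans h1)
    have := hp.one_lt
    omega
  have hrel : HasRel I.k P F := ⟨hinv, fun x hx => ⟨hx.1, hgood _ hx.1 hx.2.1, hx.2.1.cast_eq_one⟩,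
    fun x hx n => by simp only [hFc]; exact hx.2.2 n⟩
  obtain ⟨ε, v, c, hv0, hc, hP⟩ := hrel.exists_eigen (dvd_mul_left _ _) hF0
  -- the first coefficient which is nonzero
  have hex : ∃ n, ModularFormClass.qCoeff v n ≠ 0 := by
    by_contra hall
    push Not at hall
    exact hv0 (ext_qCoeff fun n => by
      rw [hall n, qCoeff_eq_coeff (0 : CuspForm (Gamma1 _) 1) (c := 0) HasExp.zero n, map_zero])
  set m := Nat.find hex with hm
  have hm0 : ModularFormClass.qCoeff v m ≠ 0 := Nat.find_spec hex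
  have hmin : ∀ j < m, ModularFormClass.qCoeff v j = 0 := fun j hj => by
    simpa using Nat.find_min hex hj
  have hmpos : m ≠ 0 := fun e => hm0 (by rw [e, qCoeff_zero_eq])
  have hmN : ∀ p : ℕ, p.Prime → p ∣ m → p ∣ I.k * I.k := fun p hp hpm => by
    by_contra hpN
    obtain ⟨a, ha⟩ := hpm
    have ha0 : 0 < a := Nat.pos_of_ne_zero fun e => hmpos (by rw [ha, e, mul_zero])
    have h1 : a < m := ha ▸ lt_mul_left ha0 hp.one_lt
    have e := hc p hp hpN a
    rw [← ha, hmin a h1, mul_zero] at e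
    refine hm0 ?_
    split_ifs at e with hd
    · rw [hmin _ ((Nat.div_le_self a p).trans_lt h1), mul_zero, add_zero] at e
      exact e
    · rwa [mul_zero, add_zero] at e
  have : NeZero m := ⟨hmpos⟩
  have : NeZero (I.k * I.k * m) := ⟨mul_ne_zero (mul_ne_zero I.k_ne I.k_ne) hmpos⟩
  obtain ⟨g, hg⟩ := exists_sieve_form v m
  have hdvd : I.k * I.k ∣ I.k * I.k * m := dvd_mul_right _ _
  set ε' := DirichletCharacter.changeLevel hdvd ε
  have hε' : ∀ p : ℕ, p.Prime → ¬ p ∣ I.k * I.k * m →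
      ε' (p : ZMod (I.k * I.k * m)) = ε (p : ZMod (I.k * I.k)) := fun p hp hpN => by
    obtain ⟨u, hu⟩ := (ZMod.isUnit_iff_coprime p _).2 ((hp.coprime_iff_not_dvd).2 hpN)
    rw [← hu, DirichletCharacter.changeLevel_eq_cast_of_dvd, hu, ZMod.cast_natCast hdvd]
  have hndvd : ∀ p : ℕ, p.Prime → ¬ p ∣ I.k * I.k → ¬ p ∣ m ∧ ¬ p ∣ I.k * I.k * m := fun p hp h =>
    ⟨fun hd => h (hmN p hp hd), fun hd => (hp.dvd_mul.1 hd).elim h fun hd' => h (hmN p hp hd')⟩
  have hgc : ∀ p : ℕ, p.Prime → ¬ p ∣ I.k * I.k →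
      ModularFormClass.qCoeff ⇑((ModularFormClass.qCoeff v m)⁻¹ • g) p = c p := fun p hp hpN => by
    have e := hc p hp hpN m
    rw [if_neg (hndvd p hp hpN).1, mul_zero, add_zero] at e
    rw [qCoeff_smul, hg, mul_comm m p, e, mul_comm, mul_assoc, mul_inv_cancel₀ hm0, mul_one]
  refine ⟨I.k * I.k * m, inferInstance, ε', (ModularFormClass.qCoeff v m)⁻¹ • g,
    ⟨?_, fun p hp hpN n => ?_⟩, fun p hp hpb hcm A hA σ hσ => ?_⟩
  · rw [qCoeff_smul, hg, mul_one, inv_mul_cancel₀ hm0]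
  · have hpN' : ¬ p ∣ I.k * I.k := fun h => hpN (h.mul_right m)
    rw [hgc p hp hpN', hε' p hp hpN]
    simp only [qCoeff_smul, hg]
    have e := hc p hp hpN' (m * n)
    have hdiv : p ∣ m * n ↔ p ∣ n :=
      ((hp.coprime_iff_not_dvd).2 (hndvd p hp hpN').1).dvd_mul_left
    rw [show p * (m * n) = m * (p * n) by ring] at e
    by_cases hn : p ∣ n
    · rw [if_pos (hdiv.2 hn), Nat.mul_div_assoc m hn] at e
      rw [if_pos hn]
      linear_combination (ModularFormClass.qCoeff v m)⁻¹ * e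
    · rw [if_neg (fun h => hn (hdiv.1 h))] at e
      rw [if_neg hn]
      linear_combination (ModularFormClass.qCoeff v m)⁻¹ * e
  · obtain ⟨h1, h2⟩ := I.hecke p hp hpb hcm A hA σ hσ
    have hpN := hgood p hp hcm
    have key : ∀ t : ℂ, Rel I.k I.f p t → ε' (p : ZMod (I.k * I.k * m)) = 1 ∧
        ModularFormClass.qCoeff ⇑((ModularFormClass.qCoeff v m)⁻¹ • g) p = t := fun t ht => by
      obtain ⟨he1, hct⟩ := hP (p, t) ⟨hp, hcm, ht⟩
      exact ⟨(hε' p hp (hndvd p hp hpN).2).trans he1, (hgc p hp hpN).trans hct⟩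
    exact ⟨fun e => key 2 (h1 e), fun e => key (-2) (h2 e)⟩

end FermatAgent.LT2.Ident
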