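import Fermat.Agent.DS.Field.Series
import Fermat.Agent.HM.LevelMaps
import Fermat.Prelude.Thm_CuspFormClass_isZeroAt_heckeU
import Mathlib.Analysis.Fourier.ZMod

/-!
# Weight one forms built from translates

Coefficients of a form of level `N` may be multiplied by any function of `n` modulo `M` (level
`N M²`), or sieved to the multiples of `m` (level `N m`).
-/

set_option autoImplicit false

noncomputable section

open UpperHalfPlane CongruenceSubgroup
open scoped MatrixGroups ModularForm Manifold OnePoint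

namespace FermatAgent.LT2.Ident

open FermatAgent.ES (HasExp qm)
open FermatAgent.DS (serOne hasExp_serOne coeff_serOne slash_eq_self)
open ModularForm (upperTriangularGL heckeMatrix heckeU)

local notation "toR" => (Matrix.SpecialLinearGroup.mapGL ℝ : SL(2, ℤ) →* GL (Fin 2) ℝ)

/-- A sum of slashes by rational matrices with the invariance of level `M` is a cusp form. -/
theorem exists_form {Γ : Subgroup (GL (Fin 2) ℝ)} [Γ.IsArithmetic] (f : CuspForm Γ 1)
    {ι : Type} [Fintype ι] (A : ι → GL (Fin 2) ℚ) (c : ι → ℂ) {M : ℕ} [NeZero M] (F : ℍ → ℂ)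
    (hF : F = ∑ i, c i • ((⇑f) ∣[(1 : ℤ)] Matrix.GeneralLinearGroup.map (Rat.castHom ℝ) (A i)))
    (hinv : ∀ γ ∈ Gamma1 M, F ∣[(1 : ℤ)] toR γ = F) :
    ∃ g : CuspForm (Gamma1 M) 1, ⇑g = F := by
  refine ⟨{ toFun := F
            slash_action_eq' := by rintro _ ⟨γ, hγ, rfl⟩; exact hinv γ hγ
            holo' := ?_
            zero_at_cusps' := fun {x} hx => ?_ }, rfl⟩
  · show MDiff F
    rw [hF]
    exact MDifferentiable.sum fun i _ => ((CuspFormClass.holo f).slash 1 _).const_smul (c i)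
  · have hx' : IsCusp x Γ := by
      rw [Subgroup.IsArithmetic.isCusp_iff_isCusp_SL2Z] at hx ⊢
      exact hx
    show x.IsZeroAt F 1
    rw [hF]
    refine P2MW.S_CuspFormClass_isZeroAt_heckeU.ModularForm.S06W2.isZeroAt_sum _ fun i _ => ?_
    intro g hg
    have h := P2MW.S_CuspFormClass_isZeroAt_heckeU.ModularForm.S06W2.isZeroAt_slash_ratCast
      f (A i) hx' g hg
    rw [ModularForm.smul_slash]
    exact h.smul _

/-- Invariance under the principal congruence group and `T` gives invariance under `Γ₁`. -/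
theorem inv_gamma1 {M : ℕ} {F : ℍ → ℂ} (hG : ∀ γ ∈ Gamma M, F ∣[(1 : ℤ)] toR γ = F)
    (hT : F ∣[(1 : ℤ)] toR ModularGroup.T = F) {γ : SL(2, ℤ)} (hγ : γ ∈ Gamma1 M) :
    F ∣[(1 : ℤ)] toR γ = F := by
  have hTz : ∀ z : ℤ, F ∣[(1 : ℤ)] toR (ModularGroup.T ^ z) = F := by
    intro z
    induction z using Int.induction_on with
    | zero => rw [zpow_zero, map_one, SlashAction.slash_one]
    | succ z ih => rw [zpow_add, zpow_one, map_mul, SlashAction.slash_mul, ih, hT]
    | pred z ih =>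
      conv_lhs => rw [← hT, ← SlashAction.slash_mul, ← map_mul, ← zpow_one_add]
      rw [show (1 : ℤ) + (-(z : ℤ) - 1) = -(z : ℤ) by ring, ih]
  obtain ⟨ha, hd, hc⟩ := (Gamma1_mem M γ).1 hγ
  have hmem : γ * ModularGroup.T ^ (-γ 0 1) ∈ Gamma M := by
    rw [Gamma_mem]
    simp [Matrix.SpecialLinearGroup.coe_mul, Matrix.mul_apply, Fin.sum_univ_two,
      ModularGroup.coe_T_zpow, ha, hd, hc]
  rw [show γ = γ * ModularGroup.T ^ (-γ 0 1) * ModularGroup.T ^ (γ 0 1) by group, map_mul,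
    SlashAction.slash_mul, hG _ hmem, hTz]

/-- Slashing by `T` is translation by one. -/
lemma slash_T_apply (F : ℍ → ℂ) (τ : ℍ) :
    (F ∣[(1 : ℤ)] toR ModularGroup.T) τ = F ((1 : ℝ) +ᵥ τ) := by
  change (F ∣[(1 : ℤ)] ModularGroup.T) τ = _
  rw [ModularForm.SL_slash_apply, modular_T_smul]
  simp [UpperHalfPlane.denom, ModularGroup.coe_T]

/-- The coefficients are those of any expansion. -/
theorem qCoeff_eq_coeff {M : ℕ} (g : CuspForm (Gamma1 M) 1) [NeZero M] {c : PowerSeries ℂ}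
    (h : HasExp 1 (⇑g) c) (n : ℕ) : ModularFormClass.qCoeff g n = PowerSeries.coeff n c := by
  rw [← coeff_serOne, (hasExp_serOne g).series_unique h]

/-- Coefficients of a multiple. -/
theorem qCoeff_smul {M : ℕ} [NeZero M] (c : ℂ) (g : CuspForm (Gamma1 M) 1) (n : ℕ) :
    ModularFormClass.qCoeff ⇑(c • g) n = c * ModularFormClass.qCoeff g n := by
  have hs : HasExp 1 (⇑(c • g)) (PowerSeries.C c * serOne g) :=
    ((hasExp_serOne g).smul c).congr_fun fun τ => rfl
  rw [qCoeff_eq_coeff _ hs, PowerSeries.coeff_C_mul, coeff_serOne]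

variable {N : ℕ} [NeZero N] (f : CuspForm (Gamma1 N) 1)

/-- The translation by a rational number. -/
def transGL (r : ℚ) : GL (Fin 2) ℝ := upperTriangularGL 1 r 1 (by norm_num)

lemma transGL_smul (r : ℚ) (τ : ℍ) : transGL r • τ = (r : ℝ) +ᵥ τ := by
  have hdet : (0 : ℝ) < (transGL r).det.val := by
    rw [Matrix.GeneralLinearGroup.val_det_apply, transGL, ModularForm.val_upperTriangularGL,
      Matrix.det_fin_two_of]
    norm_num
  refine UpperHalfPlane.ext ?_
  rw [UpperHalfPlane.coe_smul_of_det_pos hdet, UpperHalfPlane.coe_vadd]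
  simp [UpperHalfPlane.num, UpperHalfPlane.denom, transGL, ModularForm.val_upperTriangularGL,
    add_comm]

lemma slash_transGL (F : ℍ → ℂ) (r : ℚ) (τ : ℍ) :
    (F ∣[(1 : ℤ)] transGL r) τ = F ((r : ℝ) +ᵥ τ) := by
  have hdet : (transGL r).det.val = (1 : ℝ) := by
    rw [Matrix.GeneralLinearGroup.val_det_apply, transGL, ModularForm.val_upperTriangularGL,
      Matrix.det_fin_two_of]
    norm_num
  rw [ModularForm.slash_apply, transGL_smul, UpperHalfPlane.σ, if_pos (by rw [hdet]; exact one_pos),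
    hdet]
  simp [UpperHalfPlane.denom, transGL, ModularForm.val_upperTriangularGL]

/-- The entries of an element of `Γ(M)`. -/
lemma entries_of_mem {M : ℕ} {γ : SL(2, ℤ)} (hγ : γ ∈ Gamma M) : ∃ α β γ0 δ : ℤ,
    γ 0 0 = 1 - M * α ∧ γ 0 1 = M * β ∧ γ 1 0 = M * γ0 ∧ γ 1 1 = 1 - M * δ := by
  obtain ⟨h00, h01, h10, h11⟩ := Gamma_mem.1 hγ
  obtain ⟨α, hα⟩ := (ZMod.intCast_eq_intCast_iff_dvd_sub _ 1 M).1 (h00.trans Int.cast_one.symm)
  obtain ⟨β, hβ⟩ := (ZMod.intCast_zmod_eq_zero_iff_dvd _ _).1 h01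
  obtain ⟨γ0, hγ0⟩ := (ZMod.intCast_zmod_eq_zero_iff_dvd _ _).1 h10
  obtain ⟨δ, hδ⟩ := (ZMod.intCast_eq_intCast_iff_dvd_sub _ 1 M).1 (h11.trans Int.cast_one.symm)
  exact ⟨α, β, γ0, δ, by linarith, hβ, hγ0, by linarith⟩

omit [NeZero N] in
lemma transGL_slash_gamma {M : ℕ} (hM : M ≠ 0) (j : ℕ) {γ : SL(2, ℤ)}
    (hγ : γ ∈ Gamma (N * M ^ 2)) :
    ((f : ℍ → ℂ) ∣[(1 : ℤ)] transGL ((j : ℚ) / M)) ∣[(1 : ℤ)] toR γ =
      (f : ℍ → ℂ) ∣[(1 : ℤ)] transGL ((j : ℚ) / M) := by
  obtain ⟨α, β, γ0, δ, e00, e01, hγ0, e11⟩ := entries_of_mem hγ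
  push_cast at e00 e01 hγ0 e11
  set g : Matrix (Fin 2) (Fin 2) ℤ :=
    !![γ 0 0 + j * N * M * γ0, γ 0 1 + j * N * M * (α - δ) - j ^ 2 * N * γ0;
      γ 1 0, γ 1 1 - j * N * M * γ0] with hg
  have hdet : g.det = 1 := by
    have hd := γ.det_coe
    rw [Matrix.det_fin_two] at hd
    rw [e00, e01, hγ0, e11] at hd
    rw [hg, Matrix.det_fin_two_of, e00, e01, hγ0, e11]
    linear_combination hd
  have hmem : (⟨g, hdet⟩ : SL(2, ℤ)) ∈ Gamma1 N := by
    refine (Gamma1_mem N _).2 ⟨?_, ?_, ?_⟩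
    · show ((γ 0 0 + j * N * M * γ0 : ℤ) : ZMod N) = 1
      rw [e00]
      simp
    · show ((γ 1 1 - j * N * M * γ0 : ℤ) : ZMod N) = 1
      rw [e11]
      simp
    · show ((γ 1 0 : ℤ) : ZMod N) = 0
      rw [hγ0]
      simp
  have hmul : transGL ((j : ℚ) / M) * toR γ =
      toR (⟨g, hdet⟩ : SL(2, ℤ)) * transGL ((j : ℚ) / M) := by
    have hM' : (M : ℝ) ≠ 0 := Nat.cast_ne_zero.2 hM
    refine Units.ext ?_
    have hb : (γ 0 1 : ℝ) = N * M ^ 2 * β := by exact_mod_cast congrArg (Int.cast : ℤ → ℝ) e01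
    have hc : (γ 1 0 : ℝ) = N * M ^ 2 * γ0 := by exact_mod_cast congrArg (Int.cast : ℤ → ℝ) hγ0
    have ha : (γ 0 0 : ℝ) = 1 - N * M ^ 2 * α := by
      exact_mod_cast congrArg (Int.cast : ℤ → ℝ) e00
    have hd : (γ 1 1 : ℝ) = 1 - N * M ^ 2 * δ := by
      exact_mod_cast congrArg (Int.cast : ℤ → ℝ) e11
    have hv : ∀ a b : Fin 2, (toR (⟨g, hdet⟩ : SL(2, ℤ))).val a b = (g a b : ℝ) := fun _ _ =>
      DS.val_toR _ _ _
    ext a b
    simp only [Units.val_mul, Matrix.mul_apply, Fin.sum_univ_two, hv, DS.val_toR]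
    fin_cases a <;> fin_cases b <;>
      simp [transGL, hg, ModularForm.val_upperTriangularGL, hb, hc, ha, hd] <;> field_simp <;> ring
  rw [← SlashAction.slash_mul, hmul, SlashAction.slash_mul, slash_eq_self hmem]

/-- **Twisting**: the coefficients may be multiplied by any function of `n` modulo `M`. -/
theorem exists_twist_form (M : ℕ) [NeZero M] (φ : ZMod M → ℂ) :
    ∃ g : CuspForm (Gamma1 (N * M ^ 2)) 1,
      ∀ n, ModularFormClass.qCoeff g n = φ n * ModularFormClass.qCoeff f n := by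
  set w : ZMod M → ℂ := fun j => (M : ℂ)⁻¹ * ZMod.dft φ j
  set F : ℍ → ℂ := ∑ j : ZMod M, w j • ((f : ℍ → ℂ) ∣[(1 : ℤ)] transGL ((j.val : ℚ) / M)) with hFdef
  have hG : ∀ γ ∈ Gamma (N * M ^ 2), F ∣[(1 : ℤ)] toR γ = F := by
    intro γ hγ
    rw [hFdef, SlashAction.sum_slash]
    refine Finset.sum_congr rfl fun j _ => ?_
    rw [ModularForm.smul_slash, transGL_slash_gamma f (NeZero.ne M) _ hγ]
    congr 1
    rw [UpperHalfPlane.σ, if_pos (by simp)]
    rfl
  have hF1 : ∀ τ : ℍ, F τ = ∑ j : ZMod M, w j * f ((((j.val : ℚ) / M : ℚ) : ℝ) +ᵥ τ) := fun τ => by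
    simp [hFdef, Finset.sum_apply, slash_transGL]
  have hT : F ∣[(1 : ℤ)] toR ModularGroup.T = F := funext fun τ => by
    rw [slash_T_apply, hF1, hF1]
    refine Finset.sum_congr rfl fun j _ => ?_
    have e := congrFun (slash_eq_self (f := f)
      (show ModularGroup.T ∈ Gamma1 N by rw [Gamma1_mem]; simp [ModularGroup.coe_T]))
      ((((j.val : ℚ) / M : ℚ) : ℝ) +ᵥ τ)
    rw [slash_T_apply] at e
    rw [← e, vadd_vadd, vadd_vadd, add_comm]
  obtain ⟨g, hg⟩ := exists_form (M := N * M ^ 2) f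
    (fun j : ZMod M => P2MW.S_CuspFormClass_isZeroAt_heckeU.ModularForm.S06W2.ratUpperTriangularGL
      1 ((j.val : ℚ) / M) 1 (by norm_num)) w F
    (by
      rw [hFdef]
      refine Finset.sum_congr rfl fun j _ => ?_
      congr 2
      ext a b
      fin_cases a <;> fin_cases b <;>
        simp [transGL, P2MW.S_CuspFormClass_isZeroAt_heckeU.ModularForm.S06W2.ratUpperTriangularGL,
          Matrix.GeneralLinearGroup.mkOfDetNeZero, ModularForm.val_upperTriangularGL])
    (fun γ hγ => inv_gamma1 hG hT hγ)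
  refine ⟨g, fun n => ?_⟩
  rw [qCoeff_eq_coeff g (c := PowerSeries.mk fun n => φ n * ModularFormClass.qCoeff f n),
    PowerSeries.coeff_mk]
  intro τ
  rw [hg, hF1]
  have h := hasSum_sum (s := Finset.univ) fun (j : ZMod M) (_ : j ∈ Finset.univ) =>
    ((hasExp_serOne f) ((((j.val : ℚ) / M : ℚ) : ℝ) +ᵥ τ)).mul_left (w j)
  refine h.congr_fun fun e => ?_
  set q := qm 1 τ
  have hq : ∀ j : ZMod M, qm 1 ((((j.val : ℚ) / M : ℚ) : ℝ) +ᵥ τ) ^ e =
      ZMod.stdAddChar (j * (e : ZMod M)) * q ^ e := fun j => by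
    have h1 : qm 1 ((((j.val : ℚ) / M : ℚ) : ℝ) +ᵥ τ) =
        Complex.exp (2 * Real.pi * Complex.I * (j.val : ℂ) / M) * q := by
      simp only [qm, q, Function.Periodic.qParam, ← Complex.exp_add, UpperHalfPlane.coe_vadd]
      congr 1
      push_cast
      ring
    have h2 : (j * (e : ZMod M)) = (((j.val * e : ℕ) : ℤ) : ZMod M) := by
      push_cast
      rw [ZMod.natCast_zmod_val]
    rw [h1, mul_pow, h2, ZMod.stdAddChar_coe, ← Complex.exp_nat_mul]
    congr 2
    push_cast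
    ring
  have hφ : φ (e : ZMod M) = ∑ j : ZMod M, ZMod.stdAddChar (j * (e : ZMod M)) * w j := by
    conv_lhs => rw [← ZMod.dft.symm_apply_apply φ, ZMod.invDFT_apply]
    simp only [w, smul_eq_mul, Finset.mul_sum]
    refine Finset.sum_congr rfl fun j _ => ?_
    ring
  rw [PowerSeries.coeff_mk, hφ, Finset.sum_mul, Finset.sum_mul]
  refine Finset.sum_congr rfl fun j _ => ?_
  rw [hq, coeff_serOne]
  ring

/-- **Sieving** to the multiples of `m`. -/
theorem exists_sieve_form (m : ℕ) [NeZero m] :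
    ∃ g : CuspForm (Gamma1 (N * m)) 1,
      ∀ n, ModularFormClass.qCoeff g n = ModularFormClass.qCoeff f (m * n) := by
  choose A hA using fun j : Fin m =>
    P2MW.S_CuspFormClass_isZeroAt_heckeU.ModularForm.S06W2.exists_heckeMatrix_eq_map m j
  have hper : Function.Periodic ((f : ℍ → ℂ) ∘ ofComplex) 1 := by
    have := DS.periodic_slash (f := f) (one_mem (Gamma0 N))
    rwa [SlashAction.slash_one] at this
  have hbdd : IsBoundedAtImInfty (f : ℍ → ℂ) := by
    have := (CuspFormClass.zero_at_infty_slash f 1).boundedAtFilter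
    rwa [SlashAction.slash_one] at this
  set F := heckeU 1 m (f : ℍ → ℂ) with hFdef
  have hG : ∀ γ ∈ Gamma (N * m), F ∣[(1 : ℤ)] toR γ = F := by
    intro γ hγ
    rw [hFdef, ModularForm.heckeU_def, SlashAction.sum_slash]
    refine Finset.sum_congr rfl fun j _ => ?_
    obtain ⟨α, β, γ0, δ, e00, e01, e10, e11⟩ := entries_of_mem hγ
    push_cast at e00 e01 e10 e11
    set g : Matrix (Fin 2) (Fin 2) ℤ :=
      !![γ 0 0 + j * γ 1 0, N * β + j * N * (α - δ) - j ^ 2 * N * γ0;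
        m * γ 1 0, γ 1 1 - j * γ 1 0] with hg
    have hdet : g.det = 1 := by
      have hd := γ.det_coe
      rw [Matrix.det_fin_two, e00, e01, e10, e11] at hd
      rw [hg, Matrix.det_fin_two_of, e00, e10, e11]
      linear_combination hd
    have hmem : (⟨g, hdet⟩ : SL(2, ℤ)) ∈ Gamma1 N := by
      refine (Gamma1_mem N _).2 ⟨?_, ?_, ?_⟩
      · show ((γ 0 0 + j * γ 1 0 : ℤ) : ZMod N) = 1
        simp [e00, e10]
      · show ((γ 1 1 - j * γ 1 0 : ℤ) : ZMod N) = 1
        simp [e11, e10]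
      · show ((m * γ 1 0 : ℤ) : ZMod N) = 0
        simp [e10]
    have hmul : heckeMatrix m j * toR γ = toR (⟨g, hdet⟩ : SL(2, ℤ)) * heckeMatrix m j := by
      refine Units.ext ?_
      have hv : ∀ a b : Fin 2, (toR (⟨g, hdet⟩ : SL(2, ℤ))).val a b = (g a b : ℝ) := fun _ _ =>
        DS.val_toR _ _ _
      ext a b
      simp only [Units.val_mul, Matrix.mul_apply, Fin.sum_univ_two, hv, DS.val_toR]
      fin_cases a <;> fin_cases b <;>
        simp [hg, ModularForm.val_heckeMatrix (NeZero.ne m), e00, e01, e10, e11] <;> ring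
    rw [← SlashAction.slash_mul, hmul, SlashAction.slash_mul, slash_eq_self hmem]
  have hT : F ∣[(1 : ℤ)] toR ModularGroup.T = F := funext fun τ => by
    rw [slash_T_apply]
    have h := ModularForm.periodic_heckeU_comp_ofComplex hper 1 m (τ : ℂ)
    simp only [Function.comp_apply, ofComplex_apply] at h
    refine Eq.trans (congrArg F ?_) h
    have hτ' : 0 < ((τ : ℂ) + (1 : ℂ)).im := by simpa using τ.im_pos
    rw [ofComplex_apply_of_im_pos hτ']
    exact UpperHalfPlane.ext (by simp [add_comm])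
  obtain ⟨g, hg⟩ := exists_form (M := N * m) f A (fun _ => 1) F
    (by
      rw [hFdef, ModularForm.heckeU_def, Finset.sum_range]
      exact Finset.sum_congr rfl fun j _ => by rw [one_smul, hA j])
    (fun γ hγ => inv_gamma1 hG hT hγ)
  refine ⟨g, fun n => ?_⟩
  rw [hg, hFdef, UpperHalfPlane.qCoeff_heckeU hper (CuspFormClass.holo f) hbdd 1 (NeZero.ne m) n,
    ModularForm.coeffHeckeU_apply, mul_comm]

end FermatAgent.LT2.Ident
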