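import Fermat.Agent.LT2.Ident.Forms
import Fermat.Agent.HM.HeckeCosets
import Fermat.Prelude.Thm_ModularForm_sturm_bound_of_isArithmetic
import Fermat.Agent.MF.EigenChar
import Mathlib.NumberTheory.DirichletCharacter.Orthogonality

/-!
# A common eigenform in the span of the translates of a form with given relations

`f` of level `N` is invariant under the elements of `Γ₀(N)` with lower right entry `≡ 1 (mod k)`
and satisfies Hecke relations at some primes `≡ 1 (mod k)`.
-/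

set_option autoImplicit false
set_option maxSynthPendingDepth 4

noncomputable section

open UpperHalfPlane CongruenceSubgroup
open scoped MatrixGroups ModularForm Manifold OnePoint

namespace FermatAgent.LT2.Ident

open FermatAgent.ES (HasExp qm)
open FermatAgent.DS (hasExp_heckeU_add serOne hasExp_serOne coeff_serOne slash_eq_self
  slash_eq_of_snd cast_mul_snd cast_fst_mul_snd)
open FermatAgent.HM (repMat intGL intGL_mul intGL_congr intGL_coe intGL_repMat)
open ModularForm (heckeMatrix heckeDiagMatrix heckeU heckeT)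
open P2MW.S_ModularForm_heckeT_slash_eq_self_of_mem_Gamma0.ModularForm.HeckeSlashInvariance
  (heckeRep heckeT_eq_sum_onePoint)

local notation "toR" => (Matrix.SpecialLinearGroup.mapGL ℝ : SL(2, ℤ) →* GL (Fin 2) ℝ)

variable {N : ℕ} [NeZero N]

/-- A form is determined by its coefficients. -/
theorem ext_qCoeff {f g : CuspForm (Gamma1 N) 1}
    (h : ∀ n, ModularFormClass.qCoeff f n = ModularFormClass.qCoeff g n) : f = g := by
  refine DFunLike.coe_injective ((hasExp_serOne f).eq_of_series ?_)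
  rw [show serOne f = serOne g from
    PowerSeries.ext fun n => by rw [coeff_serOne, coeff_serOne, h n]]
  exact hasExp_serOne g

/-- Weight one forms of level `N` form a finite dimensional space, by the Sturm bound. -/
theorem finiteDimensional_forms : FiniteDimensional ℂ (CuspForm (Gamma1 N) 1) := by
  have h1 : (1 : ℝ) ∈ (Gamma1 N : Subgroup (GL (Fin 2) ℝ)).strictPeriods := by simp
  set B := ((1 : ℤ) * (Gamma1 N : Subgroup (GL (Fin 2) ℝ)).relIndex 𝒮ℒ).toNat / 12 with hB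
  let A : CuspForm (Gamma1 N) 1 →ₗ[ℂ] (Fin (B + 1) → ℂ) :=
    { toFun := fun f i => ModularFormClass.qCoeff f i
      map_add' := fun f g => funext fun i =>
        (congrArg (PowerSeries.coeff (i : ℕ)) (ModularForm.qExpansion_add one_pos h1 f g)).trans
          (map_add _ _ _)
      map_smul' := fun c f => funext fun i => qCoeff_smul c f i }
  refine FiniteDimensional.of_injective A ((injective_iff_map_eq_zero _).2 fun f hf => ?_)
  have h := ModularForm.sturm_bound_of_isArithmetic (f := (f : ModularForm (Gamma1 N) 1)) h1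
    (lt_of_lt_of_le (by exact_mod_cast Nat.lt_succ_self _)
      (PowerSeries.nat_le_order _ (B + 1) fun n hn => congrFun hf ⟨n, hn⟩))
  exact DFunLike.coe_injective (congrArg DFunLike.coe h :)

/-- The forms with Nebentypus `ε`. -/
def neb (ε : DirichletCharacter ℂ N) : Submodule ℂ (CuspForm (Gamma1 N) 1) where
  carrier := {f | ∀ γ ∈ Gamma0 N,
    (f : ℍ → ℂ) ∣[(1 : ℤ)] toR γ = ε (γ 1 1 : ZMod N) • (f : ℍ → ℂ)}
  add_mem' := fun {f g} hf hg γ hγ => by
    rw [FunLike.coe_add, SlashAction.add_slash, hf γ hγ, hg γ hγ, smul_add]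
  zero_mem' := fun γ _ => by simp
  smul_mem' := fun c f hf γ hγ => by
    rw [FunLike.coe_smul, ModularForm.smul_slash, hf γ hγ, UpperHalfPlane.σ, if_pos (by simp),
      smul_smul, smul_smul, mul_comm]
    rfl

/-- The left upper entry of a representative. -/
def fstEntry (p : ℕ) (x : OnePoint (ZMod p)) : ℕ := x.elim p fun _ => 1

omit [NeZero N] in
/-- The permutation of the representatives by an element of `Γ₀(N)`. -/
theorem exists_perm {p : ℕ} [Fact p.Prime] (hpN : ¬ p ∣ N) {γ : SL(2, ℤ)} (hγ : γ ∈ Gamma0 N) :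
    ∃ (π : OnePoint (ZMod p) ≃ OnePoint (ZMod p)) (g : OnePoint (ZMod p) → SL(2, ℤ)),
      ∀ x, g x ∈ Gamma0 N ∧ heckeRep p x * toR γ = toR (g x) * heckeRep p (π x) ∧
        (g x 0 0 : ZMod N) * fstEntry p (π x) = fstEntry p x * (γ 0 0 : ZMod N) := by
  classical
  have h10 : (N : ℤ) ∣ γ 1 0 := (ZMod.intCast_zmod_eq_zero_iff_dvd _ _).1 (Gamma0_mem.1 hγ)
  have hex : ∀ x, ∃ g : Gamma0 N, ∃ z : OnePoint (ZMod p),
      repMat p x * (γ : Matrix (Fin 2) (Fin 2) ℤ) =
        ((g : SL(2, ℤ)) : Matrix (Fin 2) (Fin 2) ℤ) * repMat p z := fun x => by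
    refine HM.exists_eq_mul_repMat hpN _ ?_ ?_
    · rw [Matrix.det_mul, HM.det_repMat, γ.det_coe, mul_one]
    · have e : repMat p x 1 0 = 0 := by induction x using OnePoint.rec <;> simp
      rw [Matrix.mul_apply, Fin.sum_univ_two, e, zero_mul, zero_add]
      exact h10.mul_left _
  choose g π hπ using hex
  have hinj : Function.Injective π := fun x y hxy => by
    refine HM.repMat_unique (γ := (g x : SL(2, ℤ)) * (g y : SL(2, ℤ))⁻¹) ?_
    have e : repMat p x * (γ : Matrix (Fin 2) (Fin 2) ℤ) =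
        ((g x : SL(2, ℤ)) * (g y : SL(2, ℤ))⁻¹ : SL(2, ℤ)).val *
          (repMat p y * (γ : Matrix (Fin 2) (Fin 2) ℤ)) := by
      rw [hπ y, ← Matrix.mul_assoc, ← Matrix.SpecialLinearGroup.coe_mul, inv_mul_cancel_right,
        hπ x, hxy]
    have e2 := congrArg (· * (γ⁻¹ : SL(2, ℤ)).val) e
    simpa only [Matrix.mul_assoc, ← Matrix.SpecialLinearGroup.coe_mul, mul_inv_cancel,
      Matrix.SpecialLinearGroup.coe_one, Matrix.mul_one] using e2
  refine ⟨Equiv.ofBijective π (Finite.injective_iff_bijective.mp hinj), fun x => g x, fun x =>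
    ⟨(g x).2, ?_, ?_⟩⟩
  · rw [Equiv.ofBijective_apply, ← intGL_repMat, ← intGL_repMat, ← intGL_coe, ← intGL_coe,
      ← intGL_mul, ← intGL_mul]
    exact intGL_congr (hπ x) _
  · have e := congrArg (fun z : ℤ => (z : ZMod N)) (congrFun (congrFun (hπ x) 0) 0)
    have hz : ((γ 1 0 : ℤ) : ZMod N) = 0 := Gamma0_mem.1 hγ
    simp only [Matrix.mul_apply, Fin.sum_univ_two, Int.cast_add, Int.cast_mul, hz, mul_zero,
      add_zero] at e
    have h0 : ∀ y : OnePoint (ZMod p), ((repMat p y 0 0 : ℤ) : ZMod N) = (fstEntry p y : ZMod N) ∧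
        repMat p y 1 0 = 0 := fun y => by
      induction y using OnePoint.rec <;> simp [fstEntry]
    rw [(h0 _).1, (h0 _).1, (h0 _).2, Int.cast_zero, mul_zero, add_zero] at e
    exact e.symm

/-- The Hecke operator as a sum over the representatives with weights. -/
lemma heckeU_add_smul_diag {p : ℕ} [NeZero p] (f : ℍ → ℂ) (c : ℂ) :
    heckeU 1 p f + c • (f ∣[(1 : ℤ)] heckeDiagMatrix p) =
      ∑ x : OnePoint (ZMod p), (x.elim c fun _ => 1) • (f ∣[(1 : ℤ)] heckeRep p x) := by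
  classical
  rw [P2MW.S_ModularForm_heckeT_slash_eq_self_of_mem_Gamma0.ModularForm.HeckeSlashInvariance.heckeU_eq_sum_zmod,
    show (Finset.univ : Finset (OnePoint (ZMod p))) =
      insert ∞ (Finset.univ.image ((↑) : ZMod p → OnePoint (ZMod p))) from
      (Finset.eq_univ_iff_forall.2 fun x => by induction x using OnePoint.rec <;> simp).symm,
    Finset.sum_insert (by simp), Finset.sum_image fun a _ b _ h =>
      OnePoint.coe_eq_coe.1 h, add_comm]
  congr 1
  exact Finset.sum_congr rfl fun j _ => (one_smul ℂ _).symm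

omit [NeZero N] in
lemma elim_eq_char (ε : DirichletCharacter ℂ N) (p : ℕ) (x : OnePoint (ZMod p)) :
    (x.elim (ε (p : ZMod N)) fun _ => (1 : ℂ)) = ε (fstEntry p x : ZMod N) := by
  induction x using OnePoint.rec <;> simp [fstEntry]

lemma σ_heckeRep {p : ℕ} [Fact p.Prime] (x : OnePoint (ZMod p)) :
    UpperHalfPlane.σ (heckeRep p x) = .refl ℝ ℂ := by
  induction x using OnePoint.rec
  · exact ModularForm.σ_heckeDiagMatrix p
  · exact ModularForm.σ_heckeMatrix p _

lemma slash_smul_toR (f : ℍ → ℂ) (c : ℂ) (γ : SL(2, ℤ)) :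
    (c • f) ∣[(1 : ℤ)] toR γ = c • (f ∣[(1 : ℤ)] toR γ) := by
  rw [ModularForm.smul_slash, UpperHalfPlane.σ, if_pos (by simp)]
  rfl

/-- Stability of the forms with Nebentypus. -/
theorem exists_tOp {ε : DirichletCharacter ℂ N} {p : ℕ} (hp : p.Prime) (hpN : ¬ p ∣ N)
    (f : neb ε) : ∃ g : neb ε, ((g : CuspForm (Gamma1 N) 1) : ℍ → ℂ) =
      heckeU 1 p ((f : CuspForm (Gamma1 N) 1) : ℍ → ℂ) +
        ε (p : ZMod N) • (((f : CuspForm (Gamma1 N) 1) : ℍ → ℂ) ∣[(1 : ℤ)] heckeDiagMatrix p) := by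
  have := Fact.mk hp
  have := NeZero.mk hp.ne_zero
  obtain ⟨F, hF⟩ := f
  set G := heckeU 1 p (F : ℍ → ℂ) + ε (p : ZMod N) • ((F : ℍ → ℂ) ∣[(1 : ℤ)] heckeDiagMatrix p)
    with hGdef
  have hG : G = ∑ x : OnePoint (ZMod p),
      ε (fstEntry p x : ZMod N) • ((F : ℍ → ℂ) ∣[(1 : ℤ)] heckeRep p x) := by
    rw [hGdef, heckeU_add_smul_diag]
    exact Finset.sum_congr rfl fun x _ => by rw [elim_eq_char]
  have hslash : ∀ γ ∈ Gamma0 N, G ∣[(1 : ℤ)] toR γ = ε (γ 1 1 : ZMod N) • G := by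
    intro γ hγ
    obtain ⟨π, g, hg⟩ := exists_perm hpN hγ
    rw [hG, SlashAction.sum_slash, Finset.smul_sum]
    refine Fintype.sum_equiv π _ _ fun x => ?_
    obtain ⟨hgx, hmul, hfst⟩ := hg x
    have h1 := cast_fst_mul_snd hgx
    have h2 := cast_fst_mul_snd hγ
    rw [slash_smul_toR, ← SlashAction.slash_mul, hmul, SlashAction.slash_mul, hF _ hgx,
      ModularForm.smul_slash, σ_heckeRep, ContinuousAlgEquiv.refl_apply, smul_smul, smul_smul]
    congr 1
    rw [← map_mul, ← map_mul]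
    congr 1
    linear_combination (-(g x 1 1 : ZMod N) * (γ 1 1 : ZMod N)) * hfst
      + ((γ 1 1 : ZMod N) * (fstEntry p (π x) : ZMod N)) * h1
      - ((g x 1 1 : ZMod N) * (fstEntry p x : ZMod N)) * h2
  choose A hA using fun x : OnePoint (ZMod p) => show ∃ A : GL (Fin 2) ℚ,
      heckeRep p x = Matrix.GeneralLinearGroup.map (Rat.castHom ℝ) A from by
    induction x using OnePoint.rec
    · exact P2MW.S_CuspFormClass_isZeroAt_heckeU.ModularForm.S06W2.exists_heckeDiagMatrix_eq_map p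
    · exact P2MW.S_CuspFormClass_isZeroAt_heckeU.ModularForm.S06W2.exists_heckeMatrix_eq_map p _
  obtain ⟨g, hg⟩ := exists_form (M := N) F A (fun x => ε (fstEntry p x : ZMod N)) G
    (by rw [hG]; exact Finset.sum_congr rfl fun x _ => by rw [hA x])
    fun γ hγ => by
      obtain ⟨-, hd, hc⟩ := (Gamma1_mem N γ).1 hγ
      rw [hslash γ (Gamma0_mem.2 hc), hd, map_one, one_smul]
  exact ⟨⟨g, fun γ hγ => by rw [hg]; exact hslash γ hγ⟩, hg⟩

/-- The Hecke operator at `p` on the forms with Nebentypus. -/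
def tOp (ε : DirichletCharacter ℂ N) {p : ℕ} (hp : p.Prime) (hpN : ¬ p ∣ N) :
    Module.End ℂ (neb ε) where
  toFun f := (exists_tOp hp hpN f).choose
  map_add' f g := Subtype.ext (DFunLike.coe_injective (by
    rw [(exists_tOp hp hpN (f + g)).choose_spec, Submodule.coe_add, Submodule.coe_add,
      FunLike.coe_add, FunLike.coe_add, (exists_tOp hp hpN f).choose_spec,
      (exists_tOp hp hpN g).choose_spec, ModularForm.heckeU_add, SlashAction.add_slash, smul_add]
    abel))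
  map_smul' c f := Subtype.ext (DFunLike.coe_injective (by
    rw [(exists_tOp hp hpN (c • f)).choose_spec, RingHom.id_apply, Submodule.coe_smul,
      Submodule.coe_smul, FunLike.coe_smul, FunLike.coe_smul, (exists_tOp hp hpN f).choose_spec,
      ModularForm.heckeU_smul, ModularForm.smul_slash, ModularForm.σ_heckeDiagMatrix,
      ContinuousAlgEquiv.refl_apply, smul_add, smul_comm c]))

lemma coe_tOp (ε : DirichletCharacter ℂ N) {p : ℕ} (hp : p.Prime) (hpN : ¬ p ∣ N) (f : neb ε) :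
    (((tOp ε hp hpN f : neb ε) : CuspForm (Gamma1 N) 1) : ℍ → ℂ) =
      heckeU 1 p ((f : CuspForm (Gamma1 N) 1) : ℍ → ℂ) +
        ε (p : ZMod N) • (((f : CuspForm (Gamma1 N) 1) : ℍ → ℂ) ∣[(1 : ℤ)] heckeDiagMatrix p) :=
  (exists_tOp hp hpN f).choose_spec

theorem qCoeff_tOp (ε : DirichletCharacter ℂ N) {p : ℕ} (hp : p.Prime) (hpN : ¬ p ∣ N) (f : neb ε)
    (n : ℕ) : ModularFormClass.qCoeff ((tOp ε hp hpN f : neb ε) : CuspForm (Gamma1 N) 1) n =
      ModularFormClass.qCoeff (f : CuspForm (Gamma1 N) 1) (p * n) + ε (p : ZMod N) *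
        (if p ∣ n then ModularFormClass.qCoeff (f : CuspForm (Gamma1 N) 1) (n / p) else 0) := by
  have h := hasExp_heckeU_add (f : CuspForm (Gamma1 N) 1) hp.ne_zero (ε (p : ZMod N))
  rw [← coe_tOp ε hp hpN f] at h
  rw [qCoeff_eq_coeff _ h, PowerSeries.coeff_mk]

theorem tOp_comm (ε : DirichletCharacter ℂ N) {p q : ℕ} (hp : p.Prime) (hpN : ¬ p ∣ N)
    (hq : q.Prime) (hqN : ¬ q ∣ N) : Commute (tOp ε hp hpN) (tOp ε hq hqN) := by
  rcases eq_or_ne p q with rfl | hne
  · exact Commute.refl _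
  refine LinearMap.ext fun f => Subtype.ext (ext_qCoeff fun n => ?_)
  simp only [Module.End.mul_apply, qCoeff_tOp]
  have hco : p.Coprime q := (Nat.coprime_primes hp hq).2 hne
  have e1 : (p ∣ q * n) ↔ p ∣ n := hco.dvd_mul_left
  have e2 : (q ∣ p * n) ↔ q ∣ n := hco.symm.dvd_mul_left
  by_cases h1 : p ∣ n <;> by_cases h2 : q ∣ n <;> simp only [h1, h2, e1, e2, if_true, if_false]
  · have h3 : q ∣ n / p := (Nat.dvd_div_iff_mul_dvd h1).2 (hco.mul_dvd_of_dvd_of_dvd h1 h2)
    have h4 : p ∣ n / q := (Nat.dvd_div_iff_mul_dvd h2).2 (mul_comm p q ▸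
      hco.mul_dvd_of_dvd_of_dvd h1 h2)
    simp [h3, h4, Nat.mul_div_assoc _ h1, Nat.mul_div_assoc _ h2, Nat.div_div_eq_div_mul,
      mul_comm q p]
    ring_nf
  · have h3 : ¬ q ∣ n / p := fun h => h2 (h.trans (Nat.div_dvd_of_dvd h1))
    simp [h3, Nat.mul_div_assoc _ h1]
    ring_nf
  · have h4 : ¬ p ∣ n / q := fun h => h1 (h.trans (Nat.div_dvd_of_dvd h2))
    simp [h4, Nat.mul_div_assoc _ h2]
    ring_nf
  · ring_nf

/-- An element of `Γ₀(N)` over a unit. -/
theorem exists_diamond (u : (ZMod N)ˣ) : ∃ δ ∈ Gamma0 N, (δ 1 1 : ZMod N) = u := by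
  have hco : Int.gcd (u : ZMod N).val N = 1 := ZMod.val_coe_unit_coprime u
  have hb := Int.gcd_eq_gcd_ab ((u : ZMod N).val : ℤ) N
  rw [hco] at hb
  push_cast at hb
  refine ⟨⟨!![Int.gcdA ((u : ZMod N).val : ℤ) N, -Int.gcdB ((u : ZMod N).val : ℤ) N;
    (N : ℤ), ((u : ZMod N).val : ℤ)], ?_⟩, ?_, ?_⟩
  · rw [Matrix.det_fin_two_of]; linarith
  · exact Gamma0_mem.2 (by show (((N : ℤ)) : ZMod N) = 0; simp)
  · show ((((u : ZMod N).val : ℤ)) : ZMod N) = u
    simp

/-- The translate by an element of `Γ₀(N)`. -/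
theorem exists_translate (f : CuspForm (Gamma1 N) 1) {δ : SL(2, ℤ)} (hδ : δ ∈ Gamma0 N) :
    ∃ g : CuspForm (Gamma1 N) 1, ⇑g = (f : ℍ → ℂ) ∣[(1 : ℤ)] toR δ :=
  exists_form (M := N) f (fun _ : Fin 1 => Matrix.SpecialLinearGroup.mapGL ℚ δ) (fun _ => 1) _
    (by
      rw [Fin.sum_univ_one, one_smul]
      congr 1
      ext a b
      simp)
    fun γ hγ => by
      obtain ⟨-, hd, hc⟩ := (Gamma1_mem N γ).1 hγ
      rw [← SlashAction.slash_mul, ← map_mul]
      refine slash_eq_of_snd (mul_mem hδ (Gamma0_mem.2 hc)) hδ ?_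
      rw [cast_mul_snd hδ (Gamma0_mem.2 hc), hd, mul_one]

section Decomp

variable (k : ℕ) (P : Set (ℕ × ℂ))

/-- `f` is invariant under the elements congruent to one modulo `k` and satisfies the relations. -/
structure HasRel (f : CuspForm (Gamma1 N) 1) : Prop where
  /-- invariance -/
  inv : ∀ γ ∈ Gamma0 N, (γ 1 1 : ZMod k) = 1 → (f : ℍ → ℂ) ∣[(1 : ℤ)] toR γ = f
  /-- the primes are good -/
  good : ∀ x ∈ P, x.1.Prime ∧ ¬ x.1 ∣ N ∧ (x.1 : ZMod k) = 1
  /-- the relations -/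
  rel : ∀ x ∈ P, ∀ n, ModularFormClass.qCoeff f (x.1 * n) +
    (if x.1 ∣ n then ModularFormClass.qCoeff f (n / x.1) else 0) =
      x.2 * ModularFormClass.qCoeff f n

variable {k P}

theorem HasRel.slash_eq {f : CuspForm (Gamma1 N) 1} (h : HasRel k P f) (hk : k ∣ N)
    {x : ℕ × ℂ} (hx : x ∈ P) {γ : SL(2, ℤ)} (hγ : γ ∈ Gamma0 N) :
    heckeU 1 x.1 ((f : ℍ → ℂ) ∣[(1 : ℤ)] toR γ) +
        ((f : ℍ → ℂ) ∣[(1 : ℤ)] toR γ) ∣[(1 : ℤ)] heckeDiagMatrix x.1 =
      x.2 • ((f : ℍ → ℂ) ∣[(1 : ℤ)] toR γ) := by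
  obtain ⟨p, t⟩ := x
  obtain ⟨hp, hpN, hp1⟩ : p.Prime ∧ ¬ p ∣ N ∧ (p : ZMod k) = 1 := h.good _ hx
  have := Fact.mk hp
  have := NeZero.mk hp.ne_zero
  have hf : heckeU 1 p (f : ℍ → ℂ) + (1 : ℂ) • ((f : ℍ → ℂ) ∣[(1 : ℤ)] heckeDiagMatrix p) =
      t • (f : ℍ → ℂ) := by
    refine (hasExp_heckeU_add f hp.ne_zero 1).eq_of_series ?_
    convert (((hasExp_serOne f).smul t).congr_fun (g := t • (f : ℍ → ℂ)) fun τ => rfl) using 1
    ext n
    rw [PowerSeries.coeff_mk, PowerSeries.coeff_C_mul, coeff_serOne, one_mul]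
    exact h.rel _ hx n
  obtain ⟨π, g, hg⟩ := exists_perm hpN hγ
  have hsum := fun F : ℍ → ℂ => show heckeU 1 p F + F ∣[(1 : ℤ)] heckeDiagMatrix p =
      ∑ y : OnePoint (ZMod p), F ∣[(1 : ℤ)] heckeRep p y from by
    rw [← ModularForm.heckeT_eq_heckeU_add, heckeT_eq_sum_onePoint]
    exact Fintype.sum_equiv (Equiv.refl _) _ _ fun _ => rfl
  rw [one_smul, hsum] at hf
  rw [hsum, ← slash_smul_toR, ← hf, SlashAction.sum_slash]
  refine (Fintype.sum_equiv π _ _ fun y => ?_).symm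
  obtain ⟨hgy, hmul, hfst⟩ := hg y
  rw [← SlashAction.slash_mul, hmul, SlashAction.slash_mul]
  congr 1
  have hcast : ∀ z : OnePoint (ZMod p), ((fstEntry p z : ℕ) : ZMod k) = 1 := fun z => by
    induction z using OnePoint.rec <;> simp [fstEntry, hp1]
  have h00 : (g y 0 0 : ZMod k) = (γ 0 0 : ZMod k) := by
    have e := congrArg (ZMod.castHom hk (ZMod k)) hfst
    rwa [map_mul, map_mul, map_natCast, map_natCast, map_intCast, map_intCast, hcast, hcast,
      one_mul, mul_one] at e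
  have hmem : g y * γ⁻¹ ∈ Gamma0 N := mul_mem hgy (inv_mem hγ)
  conv_lhs => rw [show g y = g y * γ⁻¹ * γ by group, map_mul, SlashAction.slash_mul]
  rw [h.inv _ hmem]
  have e1 : ((g y 0 0 : ℤ) : ZMod k) * (g y 1 1 : ℤ) = 1 := by
    have := congrArg (ZMod.castHom hk (ZMod k)) (cast_fst_mul_snd hgy)
    rwa [map_mul, map_intCast, map_intCast, map_one] at this
  have e2 := congrArg (ZMod.castHom hk (ZMod k)) (cast_mul_snd hmem hγ)
  rw [inv_mul_cancel_right, map_mul, map_intCast, map_intCast, map_intCast] at e2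
  have e3 : ((γ 0 0 : ℤ) : ZMod k) * (γ 1 1 : ℤ) = 1 := by
    have := congrArg (ZMod.castHom hk (ZMod k)) (cast_fst_mul_snd hγ)
    rwa [map_mul, map_intCast, map_intCast, map_one] at this
  rw [h00, e2] at e1
  linear_combination e1 - ((g y * γ⁻¹) 1 1 : ZMod k) * e3

/-- A nonzero form with Nebentypus satisfying the relations, the character being trivial at their
primes. -/
theorem HasRel.exists_neb {f : CuspForm (Gamma1 N) 1} (h : HasRel k P f) (hk : k ∣ N)
    (hf : f ≠ 0) :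
    ∃ (ε : DirichletCharacter ℂ N) (e : neb ε), e ≠ 0 ∧ ∀ x ∈ P, ε (x.1 : ZMod N) = 1 ∧
      ∀ n, ModularFormClass.qCoeff (e : CuspForm (Gamma1 N) 1) (x.1 * n) +
        (if x.1 ∣ n then ModularFormClass.qCoeff (e : CuspForm (Gamma1 N) 1) (n / x.1) else 0) =
          x.2 * ModularFormClass.qCoeff (e : CuspForm (Gamma1 N) 1) n := by
  classical
  choose δ hδ hδu using exists_diamond (N := N)
  choose tr htr using fun u => exists_translate f (hδ u)
  set E : DirichletCharacter ℂ N → CuspForm (Gamma1 N) 1 := fun ε =>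
    ∑ u : (ZMod N)ˣ, ε (↑u⁻¹ : ZMod N) • tr u with hE
  have htot : ∀ (τ : ℍ), ∑ ε : DirichletCharacter ℂ N, E ε τ = (N.totient : ℂ) * f τ := by
    intro τ
    simp only [hE, FunLike.coe_sum, Finset.sum_apply]
    rw [Finset.sum_comm]
    have horth : ∀ u : (ZMod N)ˣ, ∑ ε : DirichletCharacter ℂ N, ε (↑u⁻¹ : ZMod N) =
        if u = 1 then (N.totient : ℂ) else 0 := fun u => by
      rw [DirichletCharacter.sum_characters_eq ℂ]
      simp [Units.val_eq_one]
    calc ∑ u : (ZMod N)ˣ, ∑ ε : DirichletCharacter ℂ N, (ε (↑u⁻¹ : ZMod N) • tr u) τ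
        = ∑ u : (ZMod N)ˣ, (∑ ε : DirichletCharacter ℂ N, ε (↑u⁻¹ : ZMod N)) * tr u τ := by
          simp [Finset.sum_mul]
      _ = (N.totient : ℂ) * tr 1 τ := by
          simp_rw [horth]
          simp [ite_mul]
      _ = _ := by
          rw [htr,
            slash_eq_self (f := f) (DS.mem_Gamma1_of_snd (hδ 1) (by rw [hδu, Units.val_one]))]
  obtain ⟨ε, hε⟩ : ∃ ε, E ε ≠ 0 := by
    by_contra hall
    push Not at hall
    refine hf (DFunLike.coe_injective (funext fun τ => ?_))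
    have := htot τ
    simp only [hall] at this
    simpa [(Nat.totient_pos.2 (NeZero.pos N)).ne'] using this
  have hmem : E ε ∈ neb ε := by
    intro γ hγ
    set v : (ZMod N)ˣ := ⟨(γ 1 1 : ZMod N), (γ 0 0 : ZMod N),
      by rw [mul_comm]; exact cast_fst_mul_snd hγ, cast_fst_mul_snd hγ⟩
    simp only [hE, FunLike.coe_sum, FunLike.coe_smul, SlashAction.sum_slash, Finset.smul_sum]
    refine Fintype.sum_equiv (Equiv.mulRight v) _ _ fun u => ?_
    rw [slash_smul_toR, htr, htr, ← SlashAction.slash_mul, ← map_mul,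
      slash_eq_of_snd (mul_mem (hδ u) hγ) (hδ (u * v))
        (by rw [cast_mul_snd (hδ u) hγ, hδu, hδu, Units.val_mul]),
      smul_smul, Equiv.coe_mulRight]
    congr 1
    rw [← map_mul]
    congr 1
    simp only [mul_inv_rev, Units.val_mul, Units.inv_mk, v]
    linear_combination (-((u⁻¹ : (ZMod N)ˣ) : ZMod N)) * cast_fst_mul_snd hγ
  refine ⟨ε, ⟨E ε, hmem⟩, fun e => hε (congrArg Subtype.val e), fun x hx => ?_⟩
  obtain ⟨hp, hpN, hp1⟩ := h.good _ hx
  refine ⟨?_, fun n => ?_⟩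
  · have hu : IsUnit (x.1 : ZMod N) :=
      (ZMod.isUnit_iff_coprime _ _).2 ((hp.coprime_iff_not_dvd).2 hpN)
    obtain ⟨v, hv⟩ := hu
    by_contra hne
    refine hε (DFunLike.coe_injective (funext fun τ => ?_))
    have key : (1 - ε (v : ZMod N)) * E ε τ = 0 := by
      rw [sub_mul, one_mul, sub_eq_zero]
      simp only [hE, FunLike.coe_sum, Finset.sum_apply, Finset.mul_sum, smul_apply,
        smul_eq_mul]
      refine Fintype.sum_equiv (Equiv.mulRight v) _ _ fun u => ?_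
      have e : tr (u * v) τ = tr u τ := by
        rw [htr, htr, show δ (u * v) = (δ (u * v) * (δ u)⁻¹) * δ u by group, map_mul,
          SlashAction.slash_mul, h.inv _ (mul_mem (hδ _) (inv_mem (hδ _)))]
        have e2 := cast_mul_snd (mul_mem (hδ (u * v)) (inv_mem (hδ u))) (hδ u)
        rw [inv_mul_cancel_right, hδu, hδu, Units.val_mul, mul_comm ((_ : ℤ) : ZMod N),
          Units.mul_right_inj] at e2
        have e3 := congrArg (ZMod.castHom hk (ZMod k)) e2
        rw [map_intCast, hv, map_natCast, hp1] at e3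
        exact e3.symm
      rw [Equiv.coe_mulRight, e, ← mul_assoc, ← map_mul]
      congr 2
      simp [mul_comm]
    refine (mul_eq_zero.1 key).resolve_left (sub_ne_zero.2 fun e => hne ?_)
    rw [← hv, ← e]
  · have hexp := hasExp_heckeU_add (E ε) hp.ne_zero 1
    have hfun : heckeU 1 x.1 (E ε : ℍ → ℂ) + (1 : ℂ) • ((E ε : ℍ → ℂ) ∣[(1 : ℤ)]
        heckeDiagMatrix x.1) = x.2 • (E ε : ℍ → ℂ) := by
      simp only [hE, FunLike.coe_sum, FunLike.coe_smul, htr, one_smul]
      rw [ModularForm.heckeU_def, SlashAction.sum_slash]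
      simp only [SlashAction.sum_slash, ModularForm.smul_slash, ModularForm.σ_heckeMatrix,
        ModularForm.σ_heckeDiagMatrix, ContinuousAlgEquiv.refl_apply, Finset.smul_sum]
      rw [Finset.sum_comm, ← Finset.sum_add_distrib]
      refine Finset.sum_congr rfl fun u _ => ?_
      rw [← Finset.smul_sum, ← smul_add, ← ModularForm.heckeU_def, h.slash_eq hk hx (hδ u),
        smul_comm]
    rw [hfun] at hexp
    have e := hexp.series_unique
      (((hasExp_serOne (E ε)).smul x.2).congr_fun (g := x.2 • (E ε : ℍ → ℂ)) fun τ => rfl)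
    have e1 := congrArg (PowerSeries.coeff n) e
    simpa [PowerSeries.coeff_mk, coeff_serOne] using e1

/-- A common eigenform satisfying the relations. -/
theorem HasRel.exists_eigen {f : CuspForm (Gamma1 N) 1} (h : HasRel k P f) (hk : k ∣ N)
    (hf : f ≠ 0) :
    ∃ (ε : DirichletCharacter ℂ N) (v : CuspForm (Gamma1 N) 1) (c : ℕ → ℂ), v ≠ 0 ∧
      (∀ p : ℕ, p.Prime → ¬ p ∣ N → ∀ n, ModularFormClass.qCoeff v (p * n) +
        ε (p : ZMod N) * (if p ∣ n then ModularFormClass.qCoeff v (n / p) else 0) =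
          c p * ModularFormClass.qCoeff v n) ∧
      ∀ x ∈ P, ε (x.1 : ZMod N) = 1 ∧ c x.1 = x.2 := by
  classical
  obtain ⟨ε, e, he, hP⟩ := h.exists_neb hk hf
  have := finiteDimensional_forms (N := N)
  let s : Set (Module.End ℂ (neb ε)) :=
    {T | ∃ (p : ℕ) (hp : p.Prime) (hpN : ¬ p ∣ N), T = tOp ε hp hpN}
  have hcomm : ∀ a ∈ s, ∀ b ∈ s, a * b = b * a := by
    rintro _ ⟨p, hp, hpN, rfl⟩ _ ⟨q, hq, hqN, rfl⟩
    exact tOp_comm ε hp hpN hq hqN
  have := Algebra.isMulCommutative_adjoin ℂ hcomm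
  let _ : CommRing (Algebra.adjoin ℂ s) := open scoped IsMulCommutative in inferInstance
  let ρ : Algebra.adjoin ℂ s →+* Module.End ℂ (neb ε) := (Algebra.adjoin ℂ s).val.toRingHom
  let W : Submodule ℂ (neb ε) := ⨅ (x : ℕ × ℂ) (hx : x ∈ P),
    Module.End.eigenspace (tOp ε (h.good x hx).1 (h.good x hx).2.1) x.2
  have hW : MF.IsStable ρ W := by
    intro T w hw
    simp only [W, Submodule.mem_iInf, Module.End.mem_eigenspace_iff] at hw ⊢
    intro x hx
    have hc : Commute (⟨_, Algebra.subset_adjoin ⟨x.1, (h.good x hx).1, (h.good x hx).2.1, rfl⟩⟩ :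
        Algebra.adjoin ℂ s) T := Commute.all _ _
    have e1 := congrArg ρ hc.eq
    rw [map_mul, map_mul] at e1
    have e2 := LinearMap.congr_fun e1 w
    simp only [Module.End.mul_apply] at e2
    exact e2.trans ((congrArg (ρ T) (hw x hx)).trans (map_smul _ _ _))
  have heW : e ∈ W := by
    simp only [W, Submodule.mem_iInf, Module.End.mem_eigenspace_iff]
    intro x hx
    refine Subtype.ext (ext_qCoeff fun n => ?_)
    rw [qCoeff_tOp, (hP x hx).1, one_mul, (hP x hx).2 n]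
    exact (qCoeff_smul x.2 (e : CuspForm (Gamma1 N) 1) n).symm
  obtain ⟨v, χ, hvW, hv0, hv⟩ := MF.exists_common_eigenvector ρ hW
    (fun e0 => he ((Submodule.eq_bot_iff W).1 e0 e heW))
  let c : ℕ → ℂ := fun p => if hp : p.Prime ∧ ¬ p ∣ N then
    χ ⟨tOp ε hp.1 hp.2, Algebra.subset_adjoin ⟨p, hp.1, hp.2, rfl⟩⟩ else 0
  refine ⟨ε, v, c, fun e0 => hv0 (Subtype.ext e0), fun p hp hpN n => ?_, fun x hx =>
    ⟨(hP x hx).1, ?_⟩⟩
  · have h1 := hv ⟨tOp ε hp hpN, Algebra.subset_adjoin ⟨p, hp, hpN, rfl⟩⟩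
    rw [← qCoeff_tOp ε hp hpN v n, show tOp ε hp hpN v = c p • v by
      simp only [c, dif_pos (show p.Prime ∧ ¬ p ∣ N from ⟨hp, hpN⟩)]; exact h1]
    exact qCoeff_smul (c p) (v : CuspForm (Gamma1 N) 1) n
  · obtain ⟨hp, hpN, -⟩ := h.good x hx
    have h1 := hv ⟨tOp ε hp hpN, Algebra.subset_adjoin ⟨x.1, hp, hpN, rfl⟩⟩
    simp only [W, Submodule.mem_iInf, Module.End.mem_eigenspace_iff] at hvW
    simp only [c, dif_pos (show x.1.Prime ∧ ¬ x.1 ∣ N from ⟨hp, hpN⟩)]
    exact smul_left_injective ℂ hv0 (h1.symm.trans (hvW x hx))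

end Decomp

end FermatAgent.LT2.Ident
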