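import Fermat.Agent.CFT.Global.Character
import Fermat.Agent.LT2.Fields.Rep
import Fermat.Agent.LT.Mod3.Galois.Torsion
import Fermat.Agent.GaloisBasic.CharpolyDensity

/-!
# Kronecker and Weber's theorem for characters of finite order

Reciprocity over `ℚ` holds at the norms from a totally complex field.  A prime `p ≡ 1 (mod 3)` is a
norm from `ℚ(ζ₃)`, so a character is trivial at the Frobenius of `p ≡ 1 (mod M)` once `p` is a
local power at every ramified prime; by the density theorem it factors through `ℚ(ζ_M)`.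
-/

set_option autoImplicit false

noncomputable section

open scoped Classical Pointwise

namespace FermatAgent.LT2.Ident

open CFT CFT.Coh CFT.Local CFT.Global GaloisBasic

variable {n : ℕ} [NeZero n] (χ : CycChar LQ ⊤ n)

omit [NeZero n] in
lemma char_mul (a b : GQ) : χ (a * b) = χ a + χ b := χ.map_mul trivial trivial

omit [NeZero n] in
lemma char_conj (a g : GQ) : χ (g⁻¹ * a * g) = χ a := by
  rw [char_mul, char_mul, χ.map_inv trivial]
  abel

omit [NeZero n] in
/-- A character is trivial on the group of a finite level. -/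
lemma exists_fixing : ∃ M : IntermediateField ℚ Qbar, FiniteDimensional ℚ M ∧
    ∀ σ ∈ M.fixingSubgroup, χ σ = 0 := by
  obtain ⟨M, hM, hle⟩ : ∃ M : IntermediateField ℚ Qbar, FiniteDimensional ℚ M ∧
      M.fixingSubgroup ≤ χ.ker := χ.ker_mem LQ.top_mem
  exact ⟨M, hM, fun σ hσ => (hle hσ).2⟩

/-- Outside a finite set a character is unramified. -/
theorem exists_unram_rat : ∃ L : Finset ℕ, ∀ (q : ℕ) [Fact q.Prime], q ∉ L →
    ∃ a : ZMod n, ∀ d : Gal' q, χ (locHom q 1 d) = a * frobExp (botF q) n d := by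
  obtain ⟨M, hM, hMfix⟩ := exists_fixing χ
  have := hM
  obtain ⟨S, hS⟩ := exists_unram_levels (K := (⊥ : IntermediateField ℚ Qbar)) M bot_le
  refine ⟨S, fun q _ hq => ?_⟩
  obtain ⟨m, hm, hker⟩ := hS q hq 1
  have := hm
  have : NeZero (n * m) := ⟨mul_ne_zero (NeZero.ne n) (NeZero.ne m)⟩
  have hbot : locField q 1 (⊥ : IntermediateField ℚ Qbar) = botF q := by
    refine le_antisymm ?_ bot_le
    rw [← InfiniteGalois.fixedField_fixingSubgroup (botF q)]
    intro x hx d
    refine (IntermediateField.mem_fixingSubgroup_iff _ _).1 ?_ x hx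
    rw [fixingSubgroup_locField, Subgroup.mem_comap, IntermediateField.fixingSubgroup_bot]
    trivial
  set F := frob (botF q) (n * m)
  refine ⟨χ (locHom q 1 F), fun d => ?_⟩
  set i := (frobExp (botF q) (n * m) d).val
  set e := d * (F ^ i)⁻¹
  have hz : frobExp (botF q) (n * m) e = 0 := by
    show unramChar (botF q) (n * m) e = 0
    have h2 := (unramChar (botF q) (n * m)).map_mul (mem_fix_bot e) (mem_fix_bot (F ^ i))
    rw [inv_mul_cancel_right, unramChar_apply, unramChar_apply, unramChar_apply,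
      frobExp_frob_pow, ZMod.natCast_zmod_val] at h2
    simpa using h2
  have he : e ∈ (unramChar (locField q 1 (⊥ : IntermediateField ℚ Qbar)) m).ker := by
    suffices key : ∀ (F' : IntermediateField ℚ_[q] (PadicAlgCl q)) [FiniteDimensional ℚ_[q] F'],
        F' = botF q → e ∈ (unramChar F' m).ker from key _ hbot
    intro F' _ hF'
    subst hF'
    refine ⟨mem_fix_bot e, ?_⟩
    rw [unramChar_apply, frobExp_cast (botF q) m (n * m) (dvd_mul_left m n) (mem_fix_bot e), hz]
    simp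
  have h0 : χ (locHom q 1 e) = 0 := hMfix _ (locHom_mem (hker he))
  have h1 : χ (locHom q 1 d) = (i : ZMod n) * χ (locHom q 1 F) := by
    rw [show d = e * F ^ i from (inv_mul_cancel_right d (F ^ i)).symm, map_mul, char_mul, h0,
      zero_add, map_pow, χ.map_pow trivial]
  have h2 : frobExp (botF q) n d = (i : ZMod n) := by
    rw [frobExp_cast (botF q) n (n * m) (dvd_mul_right n m) (mem_fix_bot d)]
  rw [h1, h2, mul_comm]

variable {K : IntermediateField ℚ Qbar} [FiniteDimensional ℚ K]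

/-- The norm to the rational numbers. -/
def normK (b : GM) : GM :=
  haveI := LQ.finiteIndex (fixingSubgroup_mem_galLevels K)
  ∑ y : GQ ⧸ K.fixingSubgroup, sec K.fixingSubgroup y • b

/-- Reciprocity over `ℚ` at the norms from a totally complex field. -/
theorem sum_invQ_norm [NumberField.IsTotallyComplex K] {L : Finset ℕ}
    (hL : ∀ (q : ℕ) [Fact q.Prime], q ∉ L →
      ∃ a : ZMod n, ∀ d : Gal' q, χ (locHom q 1 d) = a * frobExp (botF q) n d)
    {b : GM} (hb : b ∈ starK K) :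
    normK (K := K) b ∈ starK (⊥ : IntermediateField ℚ Qbar) ∧
      ∑ᶠ q : Nat.Primes, invQ χ q (normK (K := K) b) = 0 := by
  have h := sum_invAt_cyc_eq (K := K) hL hb
  exact ⟨h.1, h.2.symm.trans (sum_invAt_eq_zero (cyc_mem_Z2 _ hb))⟩

lemma ord_prime_botF (p : ℕ) [Fact p.Prime] : ord (botF p) (p : PadicAlgCl p) = 1 := by
  have h := finrank_eq (botF p)
  rw [IntermediateField.finrank_bot] at h
  rw [ord_q (botF p)]
  exact_mod_cast (mul_eq_one.mp h.symm).1

/-- A prime `p ≡ 1 (mod 3)` is a norm from a totally complex field. -/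
theorem exists_norm_eq {p : ℕ} [hp : Fact p.Prime] (h6 : ¬ p ∣ 6) (h3 : p % 3 = 1)
    (hp0 : (p : Qbar) ≠ 0) :
    ∃ (F : IntermediateField ℚ Qbar) (_ : FiniteDimensional ℚ F)
      (_ : NumberField.IsTotallyComplex F) (b : GM),
      b ∈ starK F ∧ normK (K := F) b = Ux.mk (p : Qbar) hp0 := by
  obtain ⟨u, v, huv, -⟩ := LT.Mod3.exists_trace_eq h6 h3
  obtain ⟨ω, hω⟩ := HasEnoughRootsOfUnity.exists_primitiveRoot Qbar 3
  set F : IntermediateField ℚ Qbar := IntermediateField.adjoin ℚ {ω}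
  have : FiniteDimensional ℚ F :=
    IntermediateField.adjoin.finiteDimensional (Algebra.IsIntegral.isIntegral ω)
  have hωF : ω ∈ F := IntermediateField.mem_adjoin_simple_self ℚ ω
  have : NumberField.IsTotallyComplex F :=
    ⟨LT2.Fields.GRep.not_real (z := (⟨ω, hωF⟩ : F)) (IsPrimitiveRoot.of_map_of_injective
      (f := F.val) (show IsPrimitiveRoot (F.val ⟨ω, hωF⟩) 3 from hω) F.val.injective)⟩
  have hrel : ω ^ 2 + ω + 1 = 0 := by
    have := hω.geom_sum_eq_zero (by norm_num : 1 < 3)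
    simp [Finset.sum_range_succ] at this
    linear_combination this
  set x : Qbar := (u : Qbar) + (v : Qbar) * ω
  set x' : Qbar := (u : Qbar) + (v : Qbar) * ω ^ 2
  have hω3 : ω ^ 3 = 1 := hω.pow_eq_one
  have hxx : x * x' = (p : Qbar) := by
    rw [← Int.cast_natCast, huv, LT.Mod3.eisNorm]
    push_cast
    linear_combination ((u : Qbar) * v) * hrel + ((v : Qbar) ^ 2) * hω3
  have hx0 : x ≠ 0 := fun h => hp0 (by rw [← hxx, h, zero_mul])
  set b : GM := Ux.mk x hx0
  have hb : b ∈ starK F := fun g hg => Ux.ext (by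
    rw [Ux.val_smul, Ux.val_mk, map_add, map_mul, map_intCast, map_intCast,
      (IntermediateField.mem_fixingSubgroup_iff _ _).1 hg ω hωF])
  -- the norm is `p`
  obtain ⟨τ, hτ⟩ := LT.Mod3.exists_swap hω
  have hcl : ∀ g : GQ, g ω = ω → g ∈ F.fixingSubgroup := fun g hg =>
    (IntermediateField.mem_fixingSubgroup_iff _ _).2
      ((IntermediateField.forall_mem_adjoin_smul_eq_self_iff ℚ (S := {ω}) g).2 (by simpa using hg))
  have := LQ.finiteIndex (fixingSubgroup_mem_galLevels F)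
  have hne : ((1 : GQ) : GQ ⧸ F.fixingSubgroup) ≠ (τ : GQ ⧸ F.fixingSubgroup) := fun e => by
    have h := (IntermediateField.mem_fixingSubgroup_iff _ _).1 (QuotientGroup.eq.1 e) ω hωF
    rw [inv_one, one_mul, hτ] at h
    have h1 : ω * (ω - 1) = 0 := by linear_combination h
    rcases mul_eq_zero.1 h1 with h2 | h2
    · exact hω.ne_zero (by norm_num) h2
    · exact hω.ne_one (by norm_num) (sub_eq_zero.1 h2)
  have huniv : (Finset.univ : Finset (GQ ⧸ F.fixingSubgroup)) =
      {((1 : GQ) : GQ ⧸ F.fixingSubgroup), (τ : GQ ⧸ F.fixingSubgroup)} := by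
    refine (Finset.eq_univ_iff_forall.2 fun y => ?_).symm
    induction y using QuotientGroup.induction_on with | H g =>
    rw [Finset.mem_insert, Finset.mem_singleton, QuotientGroup.eq, QuotientGroup.eq]
    have hg3 : (g ω) ^ 3 = 1 := by rw [← map_pow, hω3, map_one]
    obtain ⟨i, hi, hgi⟩ := hω.eq_pow_of_pow_eq_one hg3
    interval_cases i
    · rw [pow_zero] at hgi
      exact absurd (g.injective (hgi.symm.trans (map_one g).symm)) (hω.ne_one (by norm_num))
    · rw [pow_one] at hgi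
      exact Or.inl (hcl _ (by rw [mul_one]; exact g.symm_apply_eq.2 hgi))
    · refine Or.inr (hcl _ ?_)
      rw [AlgEquiv.mul_apply, hτ, hgi]
      exact g.symm_apply_apply ω
  have hsec : ∀ g : GQ, sec F.fixingSubgroup (g : GQ ⧸ F.fixingSubgroup) • b = g • b := fun g => by
    conv_rhs => rw [show g = sec F.fixingSubgroup (g : GQ ⧸ F.fixingSubgroup) *
      ((sec F.fixingSubgroup (g : GQ ⧸ F.fixingSubgroup))⁻¹ * g) by group, mul_smul,
      hb _ (QuotientGroup.eq.1 (mk_sec _ _))]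
  have hNp : normK (K := F) b = Ux.mk (p : Qbar) hp0 := Ux.ext (by
    show (∑ y : GQ ⧸ F.fixingSubgroup, sec F.fixingSubgroup y • b).val = _
    rw [huniv, Finset.sum_pair hne, hsec, hsec, Ux.val_add, Ux.val_smul, Ux.val_smul, Ux.val_mk,
      Ux.val_mk, AlgEquiv.one_apply, map_add, map_mul, map_intCast, map_intCast, hτ, ← hxx])
  exact ⟨F, inferInstance, inferInstance, b, hb, hNp⟩

/-- A finite order character is trivial on the local group at a large prime congruent to one. -/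
theorem locHom_eq_zero {L : Finset ℕ}
    (hL : ∀ (q : ℕ) [Fact q.Prime], q ∉ L →
      ∃ a : ZMod n, ∀ d : Gal' q, χ (locHom q 1 d) = a * frobExp (botF q) n d) :
    ∃ M : ℕ, M ≠ 0 ∧ 3 ∣ M ∧ ∀ (p : ℕ) [Fact p.Prime], p ∉ L → ¬ p ∣ 6 → (p : ZMod M) = 1 →
      ∀ d : Gal' p, χ (locHom p 1 d) = 0 := by
  have hk : ∀ q : ℕ, ∃ k : ℕ, ∀ (_ : Fact q.Prime) (p : ℕ), q ^ k ∣ p - 1 → 1 ≤ p →
      ∃ w ∈ botF q, w ^ n = (p : PadicAlgCl q) := fun q => by
    by_cases hq : q.Prime
    · have := Fact.mk hq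
      obtain ⟨ε, hε, -, hroot⟩ := exists_root_radius (F := botF q) n
      obtain ⟨k, hk⟩ := exists_pow_lt_of_lt_one hε (norm_q_lt_one (q := q))
      refine ⟨k, fun _ p hdvd hp => ?_⟩
      obtain ⟨c, hc⟩ := hdvd
      refine hroot _ (natCast_mem _ _) (lt_of_le_of_lt ?_ hk)
      have hp' : (p : PadicAlgCl q) - 1 = (q : PadicAlgCl q) ^ k * (c : PadicAlgCl q) := by
        rw [← Nat.cast_one, ← Nat.cast_sub hp, hc, Nat.cast_mul, Nat.cast_pow]
      rw [hp', norm_mul, norm_pow]
      exact mul_le_of_le_one_right (pow_nonneg (norm_nonneg _) _)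
        (IsUltrametricDist.norm_natCast_le_one _ c)
    · exact ⟨0, fun h => absurd h.out hq⟩
  choose k hk using hk
  set M := 3 * ∏ q ∈ L.filter Nat.Prime, q ^ k q
  have hM : M ≠ 0 := mul_ne_zero three_ne_zero
    (Finset.prod_ne_zero_iff.2 fun q hq => pow_ne_zero _ (Finset.mem_filter.1 hq).2.ne_zero)
  refine ⟨M, hM, dvd_mul_right 3 _, fun p hp hpL h6 hp1 => ?_⟩
  have hMp : M ∣ p - 1 :=
    (ZMod.natCast_eq_zero_iff _ _).1
      (by rw [Nat.cast_sub hp.out.one_le, hp1, Nat.cast_one, sub_self])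
  have h3 : p % 3 = 1 := by
    obtain ⟨c, hc⟩ := (dvd_mul_right 3 _).trans hMp
    have := hp.out.one_le
    omega
  have hp0 : (p : Qbar) ≠ 0 := Nat.cast_ne_zero.2 hp.out.ne_zero
  obtain ⟨F, _, _, b, hb, hNp⟩ := exists_norm_eq h6 h3 hp0
  obtain ⟨hNmem, hsum⟩ := sum_invQ_norm χ hL hb
  rw [hNp] at hsum hNmem
  -- all terms but the one at `p` vanish
  obtain ⟨a, ha⟩ := hL p hpL
  set N := Ux.mk (p : Qbar) hp0 with hN
  have hterm := invQ_eq_of_unram χ (q := (⟨p, hp.out⟩ : Nat.Primes)) ha hNmem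
  rw [finsum_eq_single (fun q : Nat.Primes => invQ χ q N) (⟨p, hp.out⟩ : Nat.Primes)] at hsum
  · rw [hterm] at hsum
    have hord : ordUx (botF p) (embUx p 1 (Ux.mk (p : Qbar) hp0)) = 1 := by
      rw [ordUx, embUx_natCast, ord_prime_botF]
    rw [hord, mul_one, qz_eq_zero_iff, Int.natCast_dvd_natCast] at hsum
    have ha0 : a = 0 := (ZMod.val_eq_zero a).1 (Nat.eq_zero_of_dvd_of_lt hsum (ZMod.val_lt a))
    intro d
    rw [ha d, ha0, zero_mul]
  intro q hq
  have : Fact (q : ℕ).Prime := ⟨q.2⟩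
  have hmem := embUx_mem_bot hNmem (q : ℕ) 1
  by_cases hqL : (q : ℕ) ∈ L
  · have hdvd : (q : ℕ) ^ k q ∣ p - 1 :=
      ((Finset.dvd_prod_of_mem (fun q => q ^ k q) (Finset.mem_filter.2 ⟨hqL, q.2⟩)).trans
        (dvd_mul_left _ 3)).trans hMp
    obtain ⟨w, hw, hwn⟩ := hk q ⟨q.2⟩ p hdvd hp.out.one_le
    have hw0 : w ≠ 0 := fun h0 => by
      rw [h0, zero_pow (NeZero.ne n), eq_comm, Nat.cast_eq_zero] at hwn
      exact hp.out.ne_zero hwn
    rw [invQ, show embUx (q : ℕ) 1 (Ux.mk (p : Qbar) hp0) = n • Ux.mk w hw0 from Ux.ext (by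
      rw [embUx_natCast, Ux.val_nsmul, Ux.val_mk, hwn])]
    exact inv_cyc_nsmul _ _ (mem_fixedUx_fixingSubgroup.mpr hw)
  · obtain ⟨a', ha'⟩ := hL q hqL
    rw [invQ_eq_of_unram χ ha' hNmem, ordUx_eq_zero_of_norm hmem
      (by
        rw [embUx_natCast]; exact norm_natCast_prime_of_ne hp.out fun e => hq (Subtype.ext e.symm)),
      mul_zero, qz_zero]

/-- **Kronecker–Weber** for a character. -/
theorem exists_cyclotomic_kernel : ∃ M : ℕ, M ≠ 0 ∧
    ∀ σ : GQ, (∀ z : Qbar, z ^ M = 1 → σ z = z) → χ σ = 0 := by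
  obtain ⟨L, hL⟩ := exists_unram_rat χ
  obtain ⟨M, hM, -, hkill⟩ := locHom_eq_zero χ hL
  obtain ⟨E, hE, hEfix⟩ := exists_fixing χ
  have := hE
  have : NeZero M := ⟨hM⟩
  refine ⟨M, hM, fun σ hσ => ?_⟩
  obtain ⟨ζ, hζ⟩ := HasEnoughRootsOfUnity.exists_primitiveRoot Qbar M
  have : FiniteDimensional ℚ (IntermediateField.adjoin ℚ {ζ}) :=
    IntermediateField.adjoin.finiteDimensional (Algebra.IsIntegral.isIntegral ζ)
  set E' := E ⊔ IntermediateField.adjoin ℚ {ζ}
  obtain ⟨p, A, fr, j, i, hp, hpS, hA, hfr, -, hj, hi⟩ :=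
    exists_frobenius_pow_congr E' σ (L ∪ (6 * M).primeFactors)
  rw [Finset.mem_union, not_or, Nat.mem_primeFactors] at hpS
  have h6M : ¬ p ∣ 6 * M := fun h => hpS.2 ⟨hp, h, by omega⟩
  have hζE : ∀ g ∈ E'.fixingSubgroup, g ζ = ζ := fun g hg =>
    (IntermediateField.mem_fixingSubgroup_iff _ _).1 hg ζ
      ((le_sup_right : IntermediateField.adjoin ℚ {ζ} ≤ E')
        (IntermediateField.mem_adjoin_simple_self ℚ ζ))
  have hker : ∀ g ∈ E'.fixingSubgroup, χ g = 0 := fun g hg =>
    hEfix g (IntermediateField.fixingSubgroup_antitone le_sup_left hg)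
  -- the prime is congruent to one
  have hfrζ : fr ζ = ζ := by
    have h1 : (σ ^ i) ζ = ζ := by
      clear hi
      induction i with
      | zero => rw [pow_zero, AlgEquiv.one_apply]
      | succ i ih => rw [pow_succ, AlgEquiv.mul_apply, hσ ζ hζ.pow_eq_one, ih]
    rw [show fr = σ ^ i * ((σ ^ i)⁻¹ * fr) by group, AlgEquiv.mul_apply, hζE _ hi, h1]
  have hp1 : (p : ZMod M) = 1 := by
    have h1 := LT.Mod3.frobenius_rootOfUnity hp (fun h => h6M (h.mul_left 6)) hA hfr hζ.pow_eq_one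
    rw [hfrζ] at h1
    have h2 : M ∣ p - 1 := hζ.dvd_of_pow_eq_one (p - 1) (mul_right_cancel₀ (hζ.ne_zero hM)
      (by rw [← pow_succ, Nat.sub_add_cancel hp.one_le, ← h1, one_mul]))
    rw [← Nat.sub_add_cancel hp.one_le, Nat.cast_add, (ZMod.natCast_eq_zero_iff _ _).2 h2, zero_add,
      Nat.cast_one]
  have := Fact.mk hp
  have hloc := hkill p hpS.1 (fun h => h6M (h.mul_right M)) hp1
  -- the decomposition group
  obtain ⟨g, hg⟩ := exists_smul_eq hp (liesOverPrime_padicPlace (q := p)) hA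
  have hdec : g⁻¹ * fr * g ∈ (padicPlace p).decompositionSubgroup ℚ := by
    have h := hfr.mem_decompositionSubgroup
    show (g⁻¹ * fr * g) • padicPlace p = padicPlace p
    rw [mul_smul, mul_smul, hg, show fr • A = A from h, ← hg, inv_smul_smul]
  have h0 : χ (g⁻¹ * fr * g) = 0 := by
    obtain ⟨d, w, hw, hdw⟩ := exists_locHom_mul (q := p) (g := (1 : GQ)) (g' := g⁻¹ * fr * g)
      (K := E') fun a _ => by
      have h1 : (g⁻¹ * fr * g) • a ∈ (g⁻¹ * fr * g) • padicPlace p ↔ a ∈ padicPlace p :=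
        ValuationSubring.smul_mem_pointwise_smul_iff
      rw [show (g⁻¹ * fr * g) • padicPlace p = padicPlace p from hdec, mem_padicPlace_iff,
        mem_padicPlace_iff, ← NNReal.coe_le_coe, ← NNReal.coe_le_coe, coe_nnnorm, coe_nnnorm,
        NNReal.coe_one] at h1
      exact h1.symm
    rw [hdw, one_mul, char_mul, hloc d, hker w hw, add_zero]
  rw [char_conj] at h0
  rw [show σ = fr ^ j * ((fr ^ j)⁻¹ * σ) by group, char_mul, hker _ hj, χ.map_pow trivial, h0,
    mul_zero, add_zero]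

end FermatAgent.LT2.Ident
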