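import Fermat.Agent.LT2.Fields.Rep
import Fermat.Agent.LT2.Ident.KW
import Fermat.Agent.LT.Mod3.Galois.Twist
import Fermat.Prelude.Def_LanglandsTunnell_ExplicitLift

/-!
# A complex representation matching the lift at the Eisenstein primes is a twist of it

If a representation with finite image has trace `± 2` and determinant one at the Frobenius elements
of class `± 1` over primes `π π̄` with `π ≡ 1 (mod n)`, it has the traces and determinants of the
product of a character with open kernel and the lift of the class.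
-/

set_option autoImplicit false

noncomputable section

open scoped Classical
open FermatAgent.LT.Period (GL3)
open FermatAgent.LT.Mod3 (IsCMPrime cmGroup pmOne mem_pmOne isCMPrime_of_frobenius exists_approx
  exists_conj_eq_smul)

namespace FermatAgent.LT2.Ident

local notation "Qbar" => AlgebraicClosure ℚ
local notation "GQ" => AlgebraicClosure ℚ ≃ₐ[ℚ] AlgebraicClosure ℚ
local notation "M2" => Matrix (Fin 2) (Fin 2) ℂ

/-- A matrix of finite order with trace `2δ` and determinant one, `δ = ± 1`, is `δ`. -/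
lemma eq_smul_one_of_pow {M : M2} {m : ℕ} (hm : m ≠ 0) (hpow : M ^ m = 1) {δ : ℂ} (hδ : δ * δ = 1)
    (htr : M.trace = 2 * δ) (hdet : M.det = 1) : M = δ • 1 := by
  set N : M2 := δ • M - 1 with hN
  have hN2 : N * N = 0 := by
    rw [Matrix.trace_fin_two] at htr
    rw [Matrix.det_fin_two] at hdet
    ext i j
    fin_cases i <;> fin_cases j <;> simp [hN, Matrix.mul_apply, Fin.sum_univ_two]
    · linear_combination δ * δ * M 0 0 * htr - δ * δ * hdet - (1 : ℂ) * hδ + 2 * M 0 0 * δ * hδ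
    · linear_combination δ * δ * M 0 1 * htr + 2 * M 0 1 * δ * hδ
    · linear_combination δ * δ * M 1 0 * htr + 2 * M 1 0 * δ * hδ
    · linear_combination δ * δ * M 1 1 * htr - δ * δ * hdet - (1 : ℂ) * hδ + 2 * M 1 1 * δ * hδ
  have hk : ∀ k : ℕ, (δ • M) ^ k = 1 + (k : ℂ) • N := fun k => by
    induction k with
    | zero => simp
    | succ k ih =>
      rw [pow_succ, ih, show δ • M = 1 + N by rw [hN]; abel, add_mul, mul_add, one_mul,
        smul_mul_assoc, mul_add, hN2, mul_one, add_zero, one_mul, Nat.cast_succ, add_smul, one_smul]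
      abel
  have hδ2 : (δ • M) ^ (2 * m) = 1 := by
    rw [smul_pow, pow_mul, sq, hδ, one_pow, one_smul, mul_comm 2 m, pow_mul, hpow, one_pow]
  rw [hk, add_eq_left] at hδ2
  have h0 : N = 0 := (smul_eq_zero.1 hδ2).resolve_left (Nat.cast_ne_zero.2 (by omega))
  rw [hN, sub_eq_zero] at h0
  calc M = δ • (δ • M) := by rw [smul_smul, hδ, one_smul]
    _ = δ • 1 := by rw [h0]

variable (R : Fields.GRep) (ρ : GQ →* GL (Fin 2) ℂ)

/-- The hypothesis at the Eisenstein primes. -/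
def AgreesAt (n : ℕ) (S : Finset ℕ) : Prop :=
  ∀ p : ℕ, p.Prime → p ∉ S → IsCMPrime n p → ∀ A : ValuationSubring Qbar, A.LiesOverPrime p →
    ∀ σ : GQ, A.IsFrobeniusAt σ p →
      (R.e σ = 1 → (ρ σ).val.trace = 2 ∧ (ρ σ).val.det = 1) ∧
      (R.e σ = -1 → (ρ σ).val.trace = -2 ∧ (ρ σ).val.det = 1)

variable {R ρ} {n : ℕ} {S : Finset ℕ}

/-- On the distinguished subgroup the representation is the sign. -/
theorem eq_of_mem (hn : n ≠ 0) (hfin : GaloisFactorsThroughFiniteLevel ρ)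
    (hagree : AgreesAt R ρ n S) {h : GQ} (hh : h ∈ cmGroup n) :
    (R.e h = 1 → ρ h = 1) ∧ (R.e h = -1 → (ρ h).val = -1) := by
  suffices key : ∀ ε : ℂ, (R.e h = 1 ∧ ε = 1) ∨ (R.e h = -1 ∧ ε = -1) → (ρ h).val = ε • 1 from
    ⟨fun e => Units.ext (by rw [key 1 (Or.inl ⟨e, rfl⟩), one_smul, Units.val_one]),
      fun e => by rw [key (-1) (Or.inr ⟨e, rfl⟩), neg_one_smul]⟩
  intro ε hε
  obtain ⟨p, A, σ, j, hp, hpS, hA, hσ, hρ, he, hmem⟩ :=
    exists_approx R hn hfin h (S ∪ (6 * n).primeFactors)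
  rw [Finset.mem_union, not_or, Nat.mem_primeFactors] at hpS
  have hσmem : σ ∈ cmGroup n ⊓ pmOne.comap R.e := hmem ⟨hh, hε.imp (·.1) (·.1)⟩
  have hcm := isCMPrime_of_frobenius hn hp (fun hd => hpS.2 ⟨hp, hd, by omega⟩) hA hσ hσmem.1
  obtain ⟨m, hm, hpow⟩ : ∃ m : ℕ, m ≠ 0 ∧ (ρ σ).val ^ m = 1 := by
    obtain ⟨L, hL, hfix⟩ := hfin
    have := hL
    have := CFT.Global.LQ.finiteIndex (CFT.fixingSubgroup_mem_galLevels L)
    obtain ⟨m, hm, -, hmem⟩ := Subgroup.exists_pow_mem_of_index_ne_zero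
      (H := L.fixingSubgroup) Subgroup.FiniteIndex.index_ne_zero σ
    exact ⟨m, hm.ne', by rw [← Units.val_pow_eq_pow_val, ← map_pow,
      hfix _ ((IntermediateField.mem_fixingSubgroup_iff _ _).1 hmem), Units.val_one]⟩
  obtain ⟨h1, h2⟩ := hagree p hp hpS.1 hcm A hA σ hσ
  obtain ⟨δ, hδe, hδ⟩ : ∃ δ : ℂ, ((R.e σ = 1 ∧ δ = 1) ∨ (R.e σ = -1 ∧ δ = -1)) ∧
      (ρ σ).val = δ • 1 := by
    rcases mem_pmOne.1 hσmem.2 with e | e
    · exact ⟨1, Or.inl ⟨e, rfl⟩, eq_smul_one_of_pow hm hpow (mul_one 1)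
        (by rw [mul_one]; exact (h1 e).1) (h1 e).2⟩
    · exact ⟨-1, Or.inr ⟨e, rfl⟩, eq_smul_one_of_pow hm hpow (by rw [neg_mul_neg, one_mul])
        (by rw [mul_neg, mul_one]; exact (h2 e).1) (h2 e).2⟩
  have hne : (-1 : GL3) ≠ 1 := by decide
  have hδj : δ ^ j = ε := by
    rcases hδe with ⟨e, rfl⟩ | ⟨e, rfl⟩ <;> rcases hε with ⟨e', rfl⟩ | ⟨e', rfl⟩ <;>
      rw [e, e'] at he <;> rcases Nat.even_or_odd j with hj | hj <;>
      simp [hj.neg_one_pow, hne, hne.symm] at he ⊢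
  rw [hρ, Units.val_pow_eq_pow_val, hδ, smul_pow, one_pow, hδj]

/-- A homomorphism from `ℤ[√-2]` to `ℂ` is injective. -/
lemma iota_injective (ι : ℤ√(-2) →+* ℂ) : Function.Injective ι := by
  refine (injective_iff_map_eq_zero ι).2 fun x hx => ?_
  have h : ι (Zsqrtd.norm x : ℤ√(-2)) = 0 := by rw [Zsqrtd.norm_eq_mul_conj, map_mul, hx, zero_mul]
  rw [map_intCast, Int.cast_eq_zero] at h
  exact (Zsqrtd.norm_eq_zero_iff (by norm_num) x).1 h

/-- A lift reducing to the identity sends `-1` to `-1`. -/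
lemma map_neg_one_of_section (Ψ : GL3 →* GL (Fin 2) (ℤ√(-2)))
    (hΨ : ∀ g, Matrix.GeneralLinearGroup.map FLT.ExplicitLift.red (Ψ g) = g)
    (ι : ℤ√(-2) →+* ℂ) : (Matrix.GeneralLinearGroup.map ι (Ψ (-1))).val = -1 := by
  set Z := (Ψ (-1)).val
  set Zc : M2 := ι.mapMatrix Z
  have hsq : Zc * Zc = 1 := by
    rw [← map_mul, ← Units.val_mul, ← map_mul, neg_one_mul, neg_neg, map_one, Units.val_one,
      map_one]
  have hred : FLT.ExplicitLift.red.mapMatrix Z = -1 := congrArg Units.val (hΨ (-1))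
  have hdet : (Zc - 1).det ≠ 0 := by
    intro h
    rw [← map_one ι.mapMatrix, ← map_sub, ← RingHom.map_det,
      map_eq_zero_iff _ (iota_injective ι)] at h
    have e := congrArg FLT.ExplicitLift.red h
    rw [RingHom.map_det, map_zero, map_sub, map_one, hred] at e
    revert e
    decide
  have hu : IsUnit (Zc - 1) := (Matrix.isUnit_iff_isUnit_det _).2 (isUnit_iff_ne_zero.2 hdet)
  have hprod : (Zc + 1) * (Zc - 1) = 0 := by rw [add_mul, mul_sub, hsq, one_mul, mul_one]; abel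
  exact eq_neg_of_add_eq_zero_left (hu.mul_left_eq_zero.1 hprod)

variable (R ρ)

/-- **The twist.** -/
theorem exists_twist (hn : n ≠ 0) (hfin : GaloisFactorsThroughFiniteLevel ρ)
    (hagree : AgreesAt R ρ n S) (Φ : GL3 →* GL (Fin 2) ℂ) (hΦ : (Φ (-1)).val = -1) :
    ∃ χ : GQ →* ℂˣ, IsOpen (χ.ker : Set GQ) ∧
      ∀ g, (ρ g).val.trace = χ g * (Φ (R.e g)).val.trace ∧
        (ρ g).val.det = (χ g : ℂ) ^ 2 * (Φ (R.e g)).val.det := by
  obtain ⟨u, ψ, hψ⟩ := exists_conj_eq_smul R two_ne_zero hn ρ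
    (fun h hh => eq_of_mem hn hfin hagree hh) Φ hΦ
  obtain ⟨L, hL, hfix⟩ := LT.Mod3.exists_level R hn hfin
  have := hL
  refine ⟨ψ.toHomUnits, Subgroup.isOpen_mono (H₁ := L.fixingSubgroup) (fun σ hσ => ?_)
    L.fixingSubgroup_isOpen, fun g => ?_⟩
  · refine MonoidHom.mem_ker.2 (Units.ext ?_)
    have h := congrFun (congrFun (hψ σ) 0) 0
    rw [(hfix σ hσ).2.1, (hfix σ hσ).2.2, map_one, mul_one, mul_inv_cancel] at h
    simpa using h.symm
  · have h := hψ g
    rw [← Matrix.trace_units_conj u (ρ g).val, ← Matrix.det_units_conj u (ρ g).val,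
      ← Units.val_mul, ← Units.val_mul, h, Matrix.trace_smul, Matrix.det_smul, Fintype.card_fin,
      smul_eq_mul]
    exact ⟨rfl, rfl⟩

end FermatAgent.LT2.Ident
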