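import Fermat.Agent.LT2.Ident.Eigen
import Fermat.Agent.LT2.Ident.Twist
import Fermat.Agent.LT2.Ident.Cyclo
import Fermat.Agent.LT.Formal.Extend
import Fermat.Agent.S48
import Fermat.Prelude.Def_LanglandsTunnell_WeightOneRealizationCarriers

/-!
# Identification: the eigenform from the lift realises the lift of the representation

The complex representation of the eigenform is the lift twisted by a Dirichlet character; undoing
the twist and removing the Euler factors at the primes of the level gives an eigensystem in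
`ℤ[√-2]` realised in weight one with character `χ₋₃`.
-/

set_option autoImplicit false

noncomputable section

open scoped Classical MatrixGroups
open FermatAgent.LT.Period (GL3)
open FermatAgent.LT.Mod3 (IsCMPrime)

namespace FermatAgent.LT2.Ident

local notation "Qbar" => AlgebraicClosure ℚ
local notation "GQ" => AlgebraicClosure ℚ ≃ₐ[ℚ] AlgebraicClosure ℚ

/-- An embedding of `ℤ[√-2]` in `ℂ`. -/
theorem exists_iota : Nonempty (ℤ√(-2) →+* ℂ) := by
  obtain ⟨r, hr⟩ := IsAlgClosed.exists_pow_nat_eq ((-2 : ℤ) : ℂ) (n := 2) two_pos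
  exact ⟨Zsqrtd.lift ⟨r, by rw [← sq, hr]⟩⟩

/-- Two eigensystems with the same values at the primes are equal. -/
theorem eigensystem_ext {A : Type*} [CommRing A] {e a b : ℕ → A}
    (ha : FormalHecke.IsEigensystem e a) (hb : FormalHecke.IsEigensystem e b) (h0 : a 0 = b 0)
    (hp : ∀ p : ℕ, p.Prime → a p = b p) (n : ℕ) : a n = b n := by
  induction n using Nat.strong_induction_on with
  | _ n ih =>
    rcases Nat.lt_or_ge n 2 with hn | hn
    · interval_cases n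
      · exact h0
      · rw [ha.1, hb.1]
    have hℓ := Nat.minFac_prime (show n ≠ 1 by omega)
    obtain ⟨m, hm⟩ := Nat.minFac_dvd n
    set ℓ := n.minFac
    have hm0 : 0 < m := Nat.pos_of_ne_zero fun e => by rw [e, mul_zero] at hm; omega
    have hlt : m < n := hm ▸ lt_mul_left hm0 hℓ.one_lt
    have h1 := ha.2 ℓ hℓ m
    have h2 := hb.2 ℓ hℓ m
    rw [← hm] at h1 h2
    rw [hp ℓ hℓ, ih m hlt] at h1
    split_ifs at h1 h2 with hd
    · rw [ih (m / ℓ) ((Nat.div_le_self m ℓ).trans_lt hlt)] at h1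
      linear_combination h1 - h2
    · linear_combination h1 - h2

/-- A unit of `ℤ[√-2]` is `± 1`. -/
lemma unit_cases {z w : ℤ√(-2)} (h : z * w = 1) : z = 1 ∨ z = -1 := by
  have hn : z.norm * w.norm = 1 := by rw [← Zsqrtd.norm_mul, h, Zsqrtd.norm_one]
  have hz := Int.eq_one_of_mul_eq_one_right (Zsqrtd.norm_nonneg (by norm_num) z) hn
  rw [Zsqrtd.norm_def] at hz
  have him : z.im = 0 := by nlinarith [sq_nonneg z.re, sq_nonneg z.im]
  rw [him] at hz
  rcases eq_or_eq_neg_of_sq_eq_sq z.re 1 (by linarith [sq z.re]) with hre | hre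
  · exact Or.inl (Zsqrtd.ext hre him)
  · exact Or.inr (Zsqrtd.ext hre (him.trans (neg_zero (G := ℤ)).symm))

variable (R : Fields.GRep)

/-- At a Frobenius the determinant of a lift is `χ₋₃`. -/
theorem det_lift (Ψ : GL3 →* GL (Fin 2) (ℤ√(-2)))
    (hΨ : ∀ g, Matrix.GeneralLinearGroup.map FLT.ExplicitLift.red (Ψ g) = g) {p : ℕ}
    (hp : p.Prime) (hp3 : p ≠ 3) {A : ValuationSubring Qbar} (hA : A.LiesOverPrime p) {σ : GQ}
    (hσ : A.IsFrobeniusAt σ p) :
    (Ψ (R.e σ)).val.det = ((EisensteinWeightOne.chiNegThree p : ℤ) : ℤ√(-2)) := by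
  have : NeZero ((3 : ℕ) : Qbar) := ⟨by norm_num⟩
  obtain ⟨ζ, hζ⟩ := HasEnoughRootsOfUnity.exists_primitiveRoot Qbar 3
  have h3 : ¬ p ∣ 3 := fun h => hp3 ((Nat.prime_dvd_prime_iff_eq hp Nat.prime_three).1 h)
  have h1 := R.det σ ζ hζ.pow_eq_one
  rw [LT.Mod3.frobenius_rootOfUnity hp h3 hA hσ hζ.pow_eq_one, ← pow_mod_orderOf,
    ← hζ.eq_orderOf] at h1
  have hd : (R.e σ).val.det = (p : ZMod 3) := by
    have h2 := hζ.pow_inj (Nat.mod_lt _ (by norm_num)) (ZMod.val_lt _) h1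
    rw [← ZMod.natCast_zmod_val (R.e σ).val.det, ← h2, ZMod.natCast_mod]
  have hred : FLT.ExplicitLift.red (Ψ (R.e σ)).val.det = (p : ZMod 3) := by
    rw [RingHom.map_det]
    exact (congrArg (fun x : GL3 => x.val.det) (hΨ (R.e σ))).trans hd
  have hu : (Ψ (R.e σ)).val.det * (Ψ (R.e σ))⁻¹.val.det = 1 := by
    rw [← Matrix.det_mul, ← Units.val_mul, mul_inv_cancel, Units.val_one, Matrix.det_one]
  have hp3' : p % 3 ≠ 0 := fun h =>
    hp3 ((Nat.prime_dvd_prime_iff_eq Nat.prime_three hp).1 (Nat.dvd_of_mod_eq_zero h)).symm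
  rw [← ZMod.natCast_mod p 3] at hred
  rcases unit_cases hu with e | e <;> rw [e] at hred ⊢ <;>
    rw [EisensteinWeightOne.chiNegThree] <;>
    rcases (show p % 3 = 1 ∨ p % 3 = 2 by omega) with hm | hm <;> simp [hm] at hred ⊢
  all_goals exact absurd hred (by decide)

/-- **Identification.** -/
theorem exists_realized (I : Input R) (Ψ : GL3 →* GL (Fin 2) (ℤ√(-2)))
    (hΨ : ∀ g, Matrix.GeneralLinearGroup.map FLT.ExplicitLift.red (Ψ g) = g) :
    ∃ (N : ℕ) (_ : NeZero N) (b : ℕ → ℤ√(-2)),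
      FormalHecke.IsEigensystem
        (fun ℓ => if ℓ ∣ N then 0 else ((EisensteinWeightOne.chiNegThree ℓ : ℤ) : ℤ√(-2))) b ∧
      CuspForm.IsWeightOneChiNegThreeRealized N b ∧
      ∀ p : ℕ, p.Prime → ¬ p ∣ 3 * N →
        ∀ A : ValuationSubring Qbar, A.LiesOverPrime p →
          ∀ σ : GQ, A.IsFrobeniusAt σ p → b p = (Ψ (R.e σ)).val.trace := by
  obtain ⟨N, hN, ε, g, hg, hcm⟩ := exists_isEigenOne I
  obtain ⟨ρ, hfin, -, hρ⟩ := Fermat.Agent.S48.result N ε g hg.1 hg.2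
  obtain ⟨ι⟩ := exists_iota
  set Φ : GL3 →* GL (Fin 2) ℂ := (Matrix.GeneralLinearGroup.map ι).comp Ψ
  have hagree : AgreesAt R ρ I.k (I.bad ∪ N.primeFactors) := by
    intro p hp hpS hpcm A hA σ hσ
    rw [Finset.mem_union, not_or, Nat.mem_primeFactors] at hpS
    have hpN : ¬ p ∣ N := fun h => hpS.2 ⟨hp, h, NeZero.ne N⟩
    obtain ⟨htr, hdet⟩ := (hρ p hp hpN A hA).2 σ hσ
    obtain ⟨h1, h2⟩ := hcm p hp hpS.1 hpcm A hA σ hσ
    exact ⟨fun e => ⟨htr.trans (h1 e).2, hdet.trans (h1 e).1⟩,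
      fun e => ⟨htr.trans (h2 e).2, hdet.trans (h2 e).1⟩⟩
  obtain ⟨χ, hopen, hχ⟩ := exists_twist R ρ I.k_ne hfin hagree Φ (map_neg_one_of_section Ψ hΨ ι)
  obtain ⟨M, hM, η, hη⟩ := exists_dirichlet χ hopen
  have : NeZero (3 * N * M) := ⟨mul_ne_zero (mul_ne_zero three_ne_zero (NeZero.ne N)) (NeZero.ne M)⟩
  set D := 3 * N * M with hD
  set φ : DirichletCharacter ℂ D := DirichletCharacter.changeLevel (dvd_mul_left M _) η⁻¹ with hφ
  obtain ⟨g', hg'⟩ := exists_twist_form g D φ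
  have : NeZero (N * D ^ 2) := ⟨mul_ne_zero (NeZero.ne N) (pow_ne_zero _ (NeZero.ne D))⟩
  set a : ℕ → ℂ := fun n => ModularFormClass.qCoeff g' n
  have hdvd : ∀ p : ℕ, p.Prime → (p ∣ N * D ^ 2 ↔ p ∣ D) := fun p hp =>
    ⟨fun h => (hp.dvd_mul.1 h).elim (fun h' => (h'.mul_left 3).mul_right M) hp.dvd_of_dvd_pow,
      fun h => (h.trans (dvd_pow_self D two_ne_zero)).mul_left N⟩
  have hφ0 : ∀ ℓ : ℕ, ℓ.Prime → ℓ ∣ D → ∀ n : ℕ, φ ((ℓ * n : ℕ) : ZMod D) = 0 := fun ℓ hℓ hd n => by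
    refine φ.map_nonunit fun h => ?_
    rw [Nat.cast_mul, IsUnit.mul_iff, ZMod.isUnit_iff_coprime] at h
    exact (hℓ.coprime_iff_not_dvd.1 h.1) hd
  have hχp : ∀ p : ℕ, p.Prime → ¬ p ∣ D → ∀ A : ValuationSubring Qbar, A.LiesOverPrime p →
      ∀ σ : GQ, A.IsFrobeniusAt σ p →
        φ (p : ZMod D) * ModularFormClass.qCoeff g p = ι (Ψ (R.e σ)).val.trace ∧
        φ (p : ZMod D) ^ 2 * ε (p : ZMod N) = ι (Ψ (R.e σ)).val.det := by
    intro p hp hpD A hA σ hσ
    have hpN : ¬ p ∣ N := fun h => hpD ((h.mul_left 3).mul_right M)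
    have hpM : ¬ p ∣ M := fun h => hpD (h.mul_left _)
    obtain ⟨htr, hdet⟩ := (hρ p hp hpN A hA).2 σ hσ
    obtain ⟨h1, h2⟩ := hχ σ
    have hφp : φ (p : ZMod D) = (χ σ : ℂ)⁻¹ := by
      obtain ⟨u, hu⟩ := (ZMod.isUnit_iff_coprime p _).2 ((hp.coprime_iff_not_dvd).2 hpD)
      rw [← hu, hφ, DirichletCharacter.changeLevel_eq_cast_of_dvd, hu,
        ZMod.cast_natCast (dvd_mul_left M _), MulChar.inv_apply_eq_inv', hη p hp hpM A hA σ hσ]
    have hne : (χ σ : ℂ) ≠ 0 := (χ σ).ne_zero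
    refine ⟨?_, ?_⟩
    · rw [hφp, ← htr, h1]
      field_simp
      exact (AddMonoidHom.map_trace ι.toAddMonoidHom (Ψ (R.e σ)).val).symm
    · rw [hφp, ← hdet, h2]
      field_simp
      exact (ι.map_det (Ψ (R.e σ)).val).symm
  have hex : ∀ ℓ : ℕ, ∃ z : ℤ√(-2), ℓ.Prime → ι z = a ℓ := fun ℓ => by
    by_cases hℓ : ℓ.Prime
    · by_cases hd : ℓ ∣ D
      · refine ⟨0, fun _ => ?_⟩
        rw [map_zero, show a ℓ = _ from hg' ℓ, ← mul_one ℓ, hφ0 ℓ hℓ hd 1, zero_mul]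
      · obtain ⟨A, hA⟩ := GaloisBasic.exists_liesOverPrime hℓ
        obtain ⟨σ, hσ⟩ := GaloisBasic.exists_isFrobeniusAt hℓ hA
        exact ⟨_, fun _ => ((hχp ℓ hℓ hd A hA σ hσ).1.symm.trans (hg' ℓ).symm)⟩
    · exact ⟨0, fun h => absurd h hℓ⟩
  choose x hx using hex
  set e : ℕ → ℤ√(-2) :=
    fun ℓ => if ℓ ∣ N * D ^ 2 then 0 else ((EisensteinWeightOne.chiNegThree ℓ : ℤ) : ℤ√(-2))
  set b := LT.Formal.extend e x
  have hb : FormalHecke.IsEigensystem e b := LT.Formal.extend_isEigensystem e x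
  refine ⟨N * D ^ 2, inferInstance, b, hb, ⟨ι, g', fun n => ?_⟩, fun p hp hp3N A hA σ hσ => ?_⟩
  · refine eigensystem_ext (e := fun ℓ => ι (e ℓ)) (a := a) (b := fun n => ι (b n)) ⟨?_, ?_⟩
      ⟨?_, ?_⟩ ?_ ?_ n
    · show ModularFormClass.qCoeff g' 1 = 1
      rw [hg', hg.1, mul_one, Nat.cast_one, map_one]
    · intro ℓ hℓ n
      simp only [a, hg']
      by_cases hd : ℓ ∣ D
      · have he : e ℓ = 0 := if_pos ((hdvd ℓ hℓ).2 hd)
        have h1 := hφ0 ℓ hℓ hd 1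
        rw [mul_one] at h1
        rw [he, map_zero, zero_mul, add_zero, hφ0 ℓ hℓ hd n, h1]
        simp
      · obtain ⟨A, hA⟩ := GaloisBasic.exists_liesOverPrime hℓ
        obtain ⟨σ, hσ⟩ := GaloisBasic.exists_isFrobeniusAt hℓ hA
        have hℓ3 : ℓ ≠ 3 := fun h => hd (h ▸ ((dvd_mul_right 3 N).mul_right M))
        have he : ι (e ℓ) = φ (ℓ : ZMod D) ^ 2 * ε (ℓ : ZMod N) := by
          rw [(hχp ℓ hℓ hd A hA σ hσ).2, det_lift R Ψ hΨ hℓ hℓ3 hA hσ]
          simp only [e, if_neg (fun h => hd ((hdvd ℓ hℓ).1 h))]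
        have hr := hg.2 ℓ hℓ (fun h => hd ((h.mul_left 3).mul_right M)) n
        rw [he]
        by_cases hn : ℓ ∣ n
        · obtain ⟨m, rfl⟩ := hn
          rw [if_pos (dvd_mul_right ℓ m), Nat.mul_div_cancel_left m hℓ.pos] at hr ⊢
          simp only [Nat.cast_mul, map_mul]
          linear_combination (φ (ℓ : ZMod D) ^ 2 * φ (m : ZMod D)) * hr
        · rw [if_neg hn] at hr ⊢
          simp only [Nat.cast_mul, map_mul]
          linear_combination (φ (ℓ : ZMod D) * φ (n : ZMod D)) * hr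
    · show ι (b 1) = 1
      rw [hb.1, map_one]
    · intro ℓ hℓ n
      have h := congrArg ι (hb.2 ℓ hℓ n)
      simp only [map_add, map_mul, apply_ite ι, map_zero, e] at h ⊢
      exact h
    · show ModularFormClass.qCoeff g' 0 = ι (b 0)
      rw [qCoeff_zero_eq, show b 0 = 0 from if_pos rfl, map_zero]
    · intro p hp
      show a p = ι (b p)
      rw [show b p = x p from LT.Formal.extend_prime e x hp, hx p hp]
  · have hpD : ¬ p ∣ D := fun h => hp3N (((hdvd p hp).2 h).mul_left 3)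
    refine iota_injective ι ?_
    rw [show b p = x p from LT.Formal.extend_prime e x hp, hx p hp, ← (hχp p hp hpD A hA σ hσ).1]
    exact hg' p

end FermatAgent.LT2.Ident
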